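/-
N4 block d (S18 glue), file 1: preliminaries.

* `mem_range_of_isAlgebraic_laurent` : a field `K` is algebraically closed in `K((q))`;
* `algClosed_in_FF` : hence in the function field `FF K N`;
* `bar_eq` : `modularFunctionFieldBar N = modularFunctionFieldFullC Q̄ N`;
* `phiK` : the base change `FF K N → Q̄ · F_N` for a subfield `K ⊆ Q̄`, as a `K`-algebra homomorphism, and
  `adjoin_range_phiK` : its image generates;
* `exists_coeffMap_eq` : a Laurent series all of whose coefficients lie in the image of an injective ring
  homomorphism is the image of a Laurent series.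
-/
import Mathlib
import Fermat.Prelude.Def_ModularCurve_ReductionModL
import Fermat.Agent.S24.FFBasics
import Fermat.Agent.N4.Setting
import Fermat.Agent.N4.BaseDescent

set_option autoImplicit false

open ModularCurve Polynomial

namespace Fermat.Agent.N4.S18Glue

open Fermat.Agent.N4.Setting Fermat.Agent.N4.BaseDescent

local notation "Qbar" => AlgebraicClosure ℚ

section AlgClosed

variable {K : Type*} [Field K]

/-- A field is algebraically closed in its field of Laurent series. -/
theorem mem_range_of_isAlgebraic_laurent (x : LaurentSeries K) (hx : IsAlgebraic K x) :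
    x ∈ (algebraMap K (LaurentSeries K)).range := by
  set L := AlgebraicClosure K
  set ι : LaurentSeries K →+* LaurentSeries L := coeffMap (algebraMap K L) with hι
  have hcomm : ∀ c : K, ι (algebraMap K (LaurentSeries K) c) =
      algebraMap L (LaurentSeries L) (algebraMap K L c) := by
    intro c
    rw [algebraMap_laurentSeries_eq_single, algebraMap_laurentSeries_eq_single, hι, coeffMap_single]
  obtain ⟨P, hP0, hP⟩ := hx
  have halg : IsAlgebraic L (ι x) := by
    refine ⟨P.map (algebraMap K L), (Polynomial.map_ne_zero_iff (algebraMap K L).injective).mpr hP0, ?_⟩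
    rw [aeval_def, eval₂_map]
    have h1 : (algebraMap L (LaurentSeries L)).comp (algebraMap K L) =
        ι.comp (algebraMap K (LaurentSeries K)) := RingHom.ext fun c => (hcomm c).symm
    rw [h1, ← hom_eval₂, ← aeval_def, hP, map_zero]
  obtain ⟨c, hc'⟩ := minpoly.mem_range_of_degree_eq_one (A := L) (x := ι x)
    (IsAlgClosed.degree_eq_one_of_irreducible L (minpoly.irreducible halg.isIntegral))
  refine ⟨x.coeff 0, ?_⟩
  rw [algebraMap_laurentSeries_eq_single]
  ext n
  by_cases hn : n = 0
  · subst hn
    rw [HahnSeries.coeff_single_same]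
  · rw [HahnSeries.coeff_single_of_ne hn]
    have h2 : (ι x).coeff n = 0 := by
      rw [← hc', algebraMap_laurentSeries_eq_single, HahnSeries.coeff_single_of_ne hn]
    rw [hι, coeffMap_coeff] at h2
    exact ((map_eq_zero_iff _ (algebraMap K L).injective).mp h2).symm

/-- A field `K` is algebraically closed in the function field `FF K N ⊆ K((q))`. -/
theorem algClosed_in_FF (K : Type) [Field K] (N : ℕ) (x : FF K N) (hx : IsAlgebraic K x) :
    x ∈ (algebraMap K (FF K N)).range := by
  have h1 : IsAlgebraic K (x : LaurentSeries K) :=
    (isAlgebraic_algHom_iff (modularFunctionFieldFullC K N).val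
      (modularFunctionFieldFullC K N).val.injective).mpr hx
  obtain ⟨c, hc⟩ := mem_range_of_isAlgebraic_laurent _ h1
  exact ⟨c, Subtype.ext hc⟩

end AlgClosed

section Series

variable {R S : Type*} [CommRing R] [CommRing S]

/-- A Laurent series all of whose coefficients lie in the image of an injective ring homomorphism is
the image of a Laurent series. -/
theorem exists_coeffMap_eq (f : R →+* S) (hf : Function.Injective f) (x : LaurentSeries S)
    (h : ∀ n, x.coeff n ∈ f.range) : ∃ y : LaurentSeries R, coeffMap f y = x := by
  choose c hc using h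
  have hsupp : Function.support c ⊆ x.support := by
    intro n hn
    rw [Function.mem_support] at hn
    rw [HahnSeries.mem_support, ← hc n]
    exact fun h0 => hn (hf (h0.trans (map_zero f).symm))
  refine ⟨⟨c, x.isPWO_support.mono hsupp⟩, ?_⟩
  ext n
  rw [coeffMap_coeff]
  exact hc n

end Series

section Bar

/-- `Q̄ · F_N = Q̄(j(q^d) : d ∣ N)`. -/
theorem bar_eq (N : ℕ) : modularFunctionFieldBar N = modularFunctionFieldFullC Qbar N :=
  Fermat.Agent.S24.FFBasics.laurentBaseChange_full Qbar N

variable (K : Type) [Field K] [Algebra K Qbar] (N : ℕ)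

theorem coeffMap_mem_bar {x : LaurentSeries K} (hx : x ∈ modularFunctionFieldFullC K N) :
    coeffMap (algebraMap K Qbar) x ∈ modularFunctionFieldBar N := by
  rw [bar_eq]
  exact coeffMap_mem_full _ N hx

/-- The base change `FF K N → Q̄ · F_N` for a subfield `K ⊆ Q̄`. -/
noncomputable def phiK : FF K N →+* ↥(modularFunctionFieldBar N) where
  toFun x := ⟨coeffMap (algebraMap K Qbar) x, coeffMap_mem_bar K N x.2⟩
  map_one' := Subtype.ext (map_one _)
  map_mul' _ _ := Subtype.ext (map_mul _ _ _)
  map_zero' := Subtype.ext (map_zero _)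
  map_add' _ _ := Subtype.ext (map_add _ _ _)

@[simp] theorem coe_phiK (x : FF K N) :
    ((phiK K N x : ↥(modularFunctionFieldBar N)) : LaurentSeries Qbar) =
      coeffMap (algebraMap K Qbar) (x : LaurentSeries K) := rfl

theorem phiK_algebraMap (c : K) :
    phiK K N (algebraMap K (FF K N) c) =
      algebraMap Qbar ↥(modularFunctionFieldBar N) (algebraMap K Qbar c) := by
  apply Subtype.ext
  show coeffMap (algebraMap K Qbar) (algebraMap K (LaurentSeries K) c) =
    algebraMap Qbar (LaurentSeries Qbar) (algebraMap K Qbar c)
  rw [algebraMap_laurentSeries_eq_single, algebraMap_laurentSeries_eq_single, coeffMap_single]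

/-- `Q̄ · F_N` as a `K`-algebra. -/
@[reducible] noncomputable def algKBar : Algebra K ↥(modularFunctionFieldBar N) :=
  ((algebraMap Qbar ↥(modularFunctionFieldBar N)).comp (algebraMap K Qbar)).toAlgebra

theorem isScalarTower_KBar :
    letI := algKBar K N
    IsScalarTower K Qbar ↥(modularFunctionFieldBar N) :=
  letI := algKBar K N
  IsScalarTower.of_algebraMap_eq fun _ => rfl

/-- `phiK` as a `K`-algebra homomorphism. -/
noncomputable def phiKAlg :
    letI := algKBar K N
    FF K N →ₐ[K] ↥(modularFunctionFieldBar N) :=
  letI := algKBar K N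
  { phiK K N with commutes' := fun c => phiK_algebraMap K N c }

theorem phiKAlg_apply (x : FF K N) :
    letI := algKBar K N
    phiKAlg K N x = phiK K N x := rfl

/-- The image of `FF K N` generates `Q̄ · F_N` over `Q̄`. -/
theorem adjoin_range_phiK :
    IntermediateField.adjoin Qbar (Set.range (phiK K N)) = ⊤ := by
  apply IntermediateField.map_injective (modularFunctionFieldBar N).val
  rw [IntermediateField.adjoin_map, ← AlgHom.fieldRange_eq_map, IntermediateField.fieldRange_val]
  apply le_antisymm
  · rw [IntermediateField.adjoin_le_iff]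
    rintro _ ⟨_, ⟨x, rfl⟩, rfl⟩
    exact (phiK K N x).2
  · conv_lhs => rw [bar_eq, modularFunctionFieldFullC]
    rw [IntermediateField.adjoin_le_iff]
    rintro _ ⟨d, hd, hdN, rfl⟩
    haveI := hd
    apply IntermediateField.subset_adjoin
    refine ⟨phiK K N (jdF K N hdN), ⟨_, rfl⟩, ?_⟩
    show coeffMap (algebraMap K Qbar) (qExpand K d (jqModC K)) = _
    rw [coeffMap_qExpand, coeffMap_jqModC]

end Bar

end Fermat.Agent.N4.S18Glue
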