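/-
N4 block d (S18 glue), file 2: the contradiction at a fixed base `(K, O)`.

`K ⊆ Q̄` a field (given as a type with `[Algebra K Q̄]`), `O ⊆ K` a discrete valuation ring with
fraction field `K`, the two charts of `FF K N` over `O` with prime and Dedekind special fibres; `p` a
prime invertible in `O`, `ζ_p ∈ O`.  If `f, g` lie in the Gauss ring of `FF K N`, `ḡ ≠ 0`, `f̄ = ḡ ^ p`,
every place of `Q̄ · F_N` has order divisible by `p` at `f`, and `f` is not a `p`-th power in
`Q̄ · F_N`: contradiction (`Cover.Main.no_split_cover`).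
-/
import Fermat.Agent.N4.S18Glue.Prelim
import Fermat.Agent.N4.FibreEmbedding
import Fermat.Agent.N4.ModPolySetting
import Fermat.Agent.N4.ConstExtPlace
import Fermat.Agent.N4.KummerConst
import Fermat.Agent.N4.Cover.Main

set_option autoImplicit false
set_option linter.unusedSectionVars false
set_option linter.style.haveILetI false

open ModularCurve Polynomial AlgebraicCurve IntermediateField

namespace Fermat.Agent.N4.S18Glue

open Fermat.Agent.N4.Setting Fermat.Agent.N4.Chart Fermat.Agent.N4.FibreEmbedding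
  Fermat.Agent.S28.Gauss Fermat.Agent.N4.Cover.Globalize

local notation "Qbar" => AlgebraicClosure ℚ

section Place

variable {k F : Type*} [Field k] [Field F] [Algebra k F]

/-- A unit of the valuation ring of a place has order `0`. -/
theorem ord_eq_zero_of_mem_of_inv_mem (w : Place k F) {x : F} (hx0 : x ≠ 0)
    (hx : x ∈ w.toValuationSubring) (hxi : x⁻¹ ∈ w.toValuationSubring) : w.ord x = 0 := by
  have h1 : (⟨x, hx⟩ : w.toValuationSubring) * ⟨x⁻¹, hxi⟩ = 1 :=
    Subtype.ext (mul_inv_cancel₀ hx0)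
  have h2 : (⟨x⁻¹, hxi⟩ : w.toValuationSubring) * ⟨x, hx⟩ = 1 :=
    Subtype.ext (inv_mul_cancel₀ hx0)
  exact w.ord_coe_unit ⟨⟨x, hx⟩, ⟨x⁻¹, hxi⟩, h1, h2⟩

end Place

section Generic

/-- Transport of an integrality equation along ring homomorphisms, with values in the range. -/
theorem isIntegral_range_of_eval₂ {A₀ G Ω : Type*} [CommRing A₀] [CommRing G] [CommRing Ω]
    (i : A₀ →+* G) (θ : G →+* Ω) (v : G) (P : A₀[X]) (hP : P.Monic) (hPv : eval₂ i v P = 0) :
    IsIntegral (θ.comp i).range (θ v) := by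
  refine ⟨P.map (θ.comp i).rangeRestrict, hP.map _, ?_⟩
  rw [eval₂_map]
  have h1 : (algebraMap (θ.comp i).range Ω).comp (θ.comp i).rangeRestrict = θ.comp i := by
    ext x; rfl
  rw [h1]
  have h4 := Polynomial.hom_eval₂ P i θ v
  rw [hPv, map_zero] at h4
  exact h4.symm

end Generic

section Chart

variable (K : Type) [Field K] (N : ℕ) (O : Subring K) [IsDiscreteValuationRing ↥O]
  [IsFractionRing ↥O K]

set_option quotPrecheck false in
local notation "κ" => IsLocalRing.ResidueField ↥O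

/-- The inverse of an element of the Gauss ring with nonzero reduction lies in the Gauss ring. -/
theorem inv_mem_gaussSubalgebra (g : gaussSubalgebra K N O) (hg : theta K N O g ≠ 0) :
    ((g : FF K N))⁻¹ ∈ gaussSubalgebra K N O := by
  rw [mem_gaussSubalgebra_iff]
  have hne : gaussRed (⟨((g : FF K N) : LaurentSeries K), g.2⟩ : gaussRing ↥O K) ≠ 0 := by
    rw [← theta_apply]; exact hg
  have h' := inv_mem_gaussRing_of_gaussRed_ne_zero hne
  have hc : ((((g : FF K N))⁻¹ : FF K N) : LaurentSeries K) =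
      (((g : FF K N)) : LaurentSeries K)⁻¹ := IntermediateField.coe_inv _ _
  rw [hc]
  exact h'

theorem coe_ne_zero_of_theta_ne_zero (g : gaussSubalgebra K N O) (hg : theta K N O g ≠ 0) :
    (g : FF K N) ≠ 0 := by
  intro h0
  apply hg
  have : g = 0 := Subtype.ext h0
  rw [this, map_zero]

variable {s : FF K N} (hs : s ∈ gaussSubalgebra K N O)

/-- The inclusion of the chart into the Gauss ring. -/
noncomputable def inclG : chartAlg ↥O (FF K N) {s} →+* gaussSubalgebra K N O :=
  (Subalgebra.inclusion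
    (chartAlg_le_gaussSubalgebra K N O (Set.singleton_subset_iff.mpr hs))).toRingHom

@[simp] theorem coe_inclG (x : chartAlg ↥O (FF K N) {s}) :
    ((inclG K N O hs x : gaussSubalgebra K N O) : FF K N) = (x : FF K N) := rfl

theorem inclG_algebraMap (a : ↥O) :
    inclG K N O hs (algebraMap ↥O (chartAlg ↥O (FF K N) {s}) a) =
      algebraMap ↥O (gaussSubalgebra K N O) a := rfl

theorem not_dvd_of_theta_ne_zero {ϖ : ↥O} (hϖ : Irreducible ϖ) (x : chartAlg ↥O (FF K N) {s})
    (hx : theta K N O (inclG K N O hs x) ≠ 0) :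
    ¬ algebraMap ↥O (chartAlg ↥O (FF K N) {s}) ϖ ∣ x := by
  rintro ⟨y, rfl⟩
  apply hx
  rw [map_mul, map_mul, inclG_algebraMap, theta_algebraMap, residue_irreducible K O hϖ, map_zero,
    zero_mul]

theorem dvd_of_theta_eq_zero (htr : Transcendental κ (theta K N O ⟨s, hs⟩))
    (hprime : (fibreIdeal K N O (chartAlg ↥O (FF K N) {s})).IsPrime)
    {ϖ : ↥O} (hϖ : Irreducible ϖ) (x : chartAlg ↥O (FF K N) {s})
    (hx : theta K N O (inclG K N O hs x) = 0) :
    algebraMap ↥O (chartAlg ↥O (FF K N) {s}) ϖ ∣ x := by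
  have hker := ker_rho_eq K N O hs htr hprime
  have hmem : x ∈ RingHom.ker (rho K N O (S := {s}) (Set.singleton_subset_iff.mpr hs)) := hx
  rw [hker, fibreIdeal_eq_span K N O hϖ, Ideal.mem_span_singleton] at hmem
  exact hmem

/-- Every element of the Gauss ring is a fraction of elements of the chart with denominator of nonzero
reduction. -/
theorem exists_frac (htr : Transcendental κ (theta K N O ⟨s, hs⟩))
    (hprime : (fibreIdeal K N O (chartAlg ↥O (FF K N) {s})).IsPrime)
    (hfrac : ∀ z : FF K N, ∃ b : ↥(Algebra.adjoin ↥O ({s} : Set (FF K N))), b ≠ 0 ∧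
      (b : FF K N) * z ∈ chartAlg ↥O (FF K N) {s})
    (z : gaussSubalgebra K N O) :
    ∃ a b : chartAlg ↥O (FF K N) {s}, theta K N O (inclG K N O hs b) ≠ 0 ∧
      (z : FF K N) * (b : FF K N) = (a : FF K N) := by
  obtain ⟨ϖ, hϖ⟩ := IsDiscreteValuationRing.exists_irreducible ↥O
  set hS : ({s} : Set (FF K N)) ⊆ (gaussSubalgebra K N O : Set (FF K N)) :=
    Set.singleton_subset_iff.mpr hs
  have hker := ker_rho_eq K N O hs htr hprime
  obtain ⟨b₀, hb₀, hb₀z⟩ := hfrac (z : FF K N)
  have hbmem : (b₀ : FF K N) ∈ (Polynomial.aeval (R := ↥O) s).range := by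
    rw [← Algebra.adjoin_singleton_eq_range_aeval]
    exact b₀.2
  obtain ⟨P₀, hP₀⟩ := hbmem
  replace hP₀ : Polynomial.aeval s P₀ = (b₀ : FF K N) := hP₀
  have hP₀ne : P₀ ≠ 0 := by
    rintro rfl
    rw [map_zero] at hP₀
    exact hb₀ (Subtype.ext hP₀.symm)
  obtain ⟨m, P₁, rfl, hP₁⟩ := exists_C_pow_mul_eq K O hϖ hP₀ne
  have hb₁A : Polynomial.aeval s P₁ ∈ Algebra.adjoin ↥O ({s} : Set (FF K N)) := by
    rw [Algebra.adjoin_singleton_eq_range_aeval]
    exact ⟨P₁, rfl⟩
  have hb₁R : Polynomial.aeval s P₁ ∈ chartAlg ↥O (FF K N) {s} := adjoin_le_chartAlg {s} hb₁A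
  have hb₁G : Polynomial.aeval s P₁ ∈ gaussSubalgebra K N O :=
    chartAlg_le_gaussSubalgebra K N O hS hb₁R
  have hθb : theta K N O ⟨Polynomial.aeval s P₁, hb₁G⟩ ≠ 0 := by
    have h1 : (⟨Polynomial.aeval s P₁, hb₁G⟩ : gaussSubalgebra K N O) =
        Polynomial.aeval (⟨s, hs⟩ : gaussSubalgebra K N O) P₁ := by
      apply Subtype.ext
      rw [Polynomial.aeval_subalgebra_coe]
    rw [h1, theta_aeval]
    exact fun h0 => hP₁ ((transcendental_iff.mp htr) _ h0)
  have hwG : Polynomial.aeval s P₁ * (z : FF K N) ∈ gaussSubalgebra K N O :=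
    (gaussSubalgebra K N O).mul_mem hb₁G z.2
  have hwR : Polynomial.aeval s P₁ * (z : FF K N) ∈ chartAlg ↥O (FF K N) {s} := by
    apply mem_chartAlg_of_pow_mul_mem K N O hs hker hϖ m _ hwG
    rw [← mul_assoc]
    rw [← hP₀, map_mul, Polynomial.aeval_C] at hb₀z
    exact hb₀z
  exact ⟨⟨_, hwR⟩, ⟨_, hb₁R⟩, hθb, mul_comm _ _⟩

/-- **The vertical hypothesis** of `no_split_cover` from `f̄ = ḡ ^ p` in the Gauss ring. -/
theorem vertical_of_theta (htr : Transcendental κ (theta K N O ⟨s, hs⟩))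
    (hprime : (fibreIdeal K N O (chartAlg ↥O (FF K N) {s})).IsPrime)
    (hfrac : ∀ z : FF K N, ∃ b : ↥(Algebra.adjoin ↥O ({s} : Set (FF K N))), b ≠ 0 ∧
      (b : FF K N) * z ∈ chartAlg ↥O (FF K N) {s})
    {ϖ : ↥O} (hϖ : Irreducible ϖ) {p : ℕ} (f g : gaussSubalgebra K N O)
    (hg : theta K N O g ≠ 0) (hfg : theta K N O f = theta K N O g ^ p) :
    Vertical (algebraMap ↥O (chartAlg ↥O (FF K N) {s}) ϖ) p (f : FF K N) (g : FF K N) := by
  have hg0 : (g : FF K N) ≠ 0 := coe_ne_zero_of_theta_ne_zero K N O g hg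
  set gi : gaussSubalgebra K N O := ⟨_, inv_mem_gaussSubalgebra K N O g hg⟩ with hgi
  have hggi : g * gi = 1 := Subtype.ext (mul_inv_cancel₀ hg0)
  have hθgi : theta K N O g * theta K N O gi = 1 := by rw [← map_mul, hggi, map_one]
  set u : gaussSubalgebra K N O := f * gi ^ p with hu
  have hθu : theta K N O u = 1 := by
    rw [hu, map_mul, map_pow, hfg, ← mul_pow, hθgi, one_pow]
  obtain ⟨m, n, hn, hmn⟩ := exists_frac K N O hs htr hprime hfrac g
  obtain ⟨c, d, hd, hcd⟩ := exists_frac K N O hs htr hprime hfrac u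
  have hθm : theta K N O (inclG K N O hs m) = theta K N O g * theta K N O (inclG K N O hs n) := by
    rw [← map_mul]
    congr 1
    exact Subtype.ext hmn.symm
  have hθc : theta K N O (inclG K N O hs c) = theta K N O (inclG K N O hs d) := by
    have : theta K N O (inclG K N O hs c) = theta K N O u * theta K N O (inclG K N O hs d) := by
      rw [← map_mul]
      congr 1
      exact Subtype.ext hcd.symm
    rw [this, hθu, one_mul]
  refine ⟨c, d, m, n, ?_, ?_, ?_, ?_, hmn, ?_⟩
  · exact not_dvd_of_theta_ne_zero K N O hs hϖ c (by rw [hθc]; exact hd)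
  · exact not_dvd_of_theta_ne_zero K N O hs hϖ m (by rw [hθm]; exact mul_ne_zero hg hn)
  · exact not_dvd_of_theta_ne_zero K N O hs hϖ n hn
  · apply dvd_of_theta_eq_zero K N O hs htr hprime hϖ
    rw [map_sub, map_sub, hθc, sub_self]
  · show (f : FF K N) * (d : FF K N) * (n : FF K N) ^ p = (c : FF K N) * (m : FF K N) ^ p
    rw [← hcd, ← hmn]
    show (f : FF K N) * (d : FF K N) * (n : FF K N) ^ p =
      ((f : FF K N) * ((g : FF K N)⁻¹) ^ p) * (d : FF K N) * ((g : FF K N) * (n : FF K N)) ^ p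
    have h1 : ((g : FF K N)⁻¹) ^ p * (g : FF K N) ^ p = 1 := by
      rw [← mul_pow, inv_mul_cancel₀ hg0, one_pow]
    rw [mul_pow]
    linear_combination (-(f : FF K N) * (d : FF K N) * (n : FF K N) ^ p) * h1

end Chart

end Fermat.Agent.N4.S18Glue
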