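/-
N4 block d (S18 glue), file 4: the horizontal hypothesis of `no_split_cover` from block dU.
-/
import Fermat.Agent.N4.S18Glue.Base

set_option autoImplicit false
set_option linter.unusedSectionVars false
set_option linter.style.haveILetI false

open ModularCurve Polynomial AlgebraicCurve IntermediateField

namespace Fermat.Agent.N4.S18Glue

open Fermat.Agent.N4.Setting Fermat.Agent.N4.Chart Fermat.Agent.N4.FibreEmbedding
  Fermat.Agent.S28.Gauss Fermat.Agent.N4.Cover.Globalize

local notation "Qbar" => AlgebraicClosure ℚ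

section Horizontal

variable (K : Type) [Field K] [CharZero K] [Algebra K Qbar] [Algebra.IsAlgebraic K Qbar] (N : ℕ)

/-- **The horizontal hypothesis** of `no_split_cover`: every discrete valuation ring of `FF K N` over
`K` lies under a place of `Q̄ · F_N` with the same uniformiser (block dU). -/
theorem horizontal_of_ord {p : ℕ} (f : FF K N) (hf : f ≠ 0)
    (hord : ∀ P : Place Qbar ↥(modularFunctionFieldBar N), (p : ℤ) ∣ P.ord (phiK K N f)) :
    Horizontal K p f := by
  intro V _ _ _ _ _ hKV
  letI := algKBar K N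
  haveI := isScalarTower_KBar K N
  have hgen : IntermediateField.adjoin Qbar (Set.range (phiKAlg K N)) = ⊤ := adjoin_range_phiK K N
  obtain ⟨w, hV, hϖ⟩ := Fermat.Agent.N4.ConstExtPlace.exists_place_above (K := K) (L := Qbar)
    (phiKAlg K N) hgen V hKV
  obtain ⟨ϖ, hirr⟩ := IsDiscreteValuationRing.exists_irreducible V
  obtain ⟨n, u, hu⟩ := IsDiscreteValuationRing.exists_units_eq_smul_zpow_of_irreducible
    (K := FF K N) hirr hf
  have hϖ0 : algebraMap V (FF K N) ϖ ≠ 0 := by
    rw [Ne, map_eq_zero_iff _ (IsFractionRing.injective V (FF K N))]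
    exact hirr.ne_zero
  have hu' : f = algebraMap V (FF K N) u * algebraMap V (FF K N) ϖ ^ n := by
    rw [hu, Units.smul_def, Algebra.smul_def]
  have hu0 : algebraMap V (FF K N) u ≠ 0 := by
    rw [Ne, map_eq_zero_iff _ (IsFractionRing.injective V (FF K N))]
    exact u.ne_zero
  have hordu : w.ord (phiK K N (algebraMap V (FF K N) u)) = 0 := by
    apply ord_eq_zero_of_mem_of_inv_mem w
    · rw [Ne, map_eq_zero]; exact hu0
    · exact hV u
    · have h1 : (phiK K N (algebraMap V (FF K N) u))⁻¹ =
          phiK K N (algebraMap V (FF K N) ((u⁻¹ : Vˣ) : V)) := by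
        rw [← map_inv₀]
        congr 1
        rw [eq_comm, ← mul_eq_one_iff_eq_inv₀ hu0, ← map_mul, Units.inv_mul, map_one]
      rw [h1]
      exact hV _
  have hordf : w.ord (phiK K N f) = n := by
    rw [hu', map_mul, map_zpow₀, w.ord_mul, hordu, zero_add, w.ord_zpow]
    · have := hϖ ϖ hirr
      rw [phiKAlg_apply] at this
      rw [this, mul_one]
    · rw [Ne, map_eq_zero]; exact hu0
    · apply zpow_ne_zero
      rw [Ne, map_eq_zero]; exact hϖ0
  obtain ⟨n', hn'⟩ := hord w
  rw [hordf] at hn'
  refine ⟨u, algebraMap V (FF K N) ϖ ^ n', ?_⟩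
  rw [hu', hn', mul_comm (p : ℤ) n', zpow_mul, zpow_natCast]

end Horizontal

end Fermat.Agent.N4.S18Glue
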