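/-
N4 block d (S18 glue), file 3: the special fibre of a chart is not a field.
-/
import Fermat.Agent.N4.S18Glue.Base

set_option autoImplicit false
set_option linter.unusedSectionVars false
set_option linter.style.haveILetI false

open ModularCurve Polynomial AlgebraicCurve IntermediateField

namespace Fermat.Agent.N4.S18Glue

open Fermat.Agent.N4.Setting Fermat.Agent.N4.Chart Fermat.Agent.N4.FibreEmbedding
  Fermat.Agent.S28.Gauss Fermat.Agent.N4.Cover.Globalize

section Chart

variable (K : Type) [Field K] (N : ℕ) (O : Subring K) [IsDiscreteValuationRing ↥O]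
  [IsFractionRing ↥O K]

set_option quotPrecheck false in
local notation "κ" => IsLocalRing.ResidueField ↥O

variable {s : FF K N} (hs : s ∈ gaussSubalgebra K N O)

set_option maxHeartbeats 1600000 in
/-- The special fibre of a chart is not a field. -/
theorem not_isField_fibre (htr : Transcendental κ (theta K N O ⟨s, hs⟩))
    {ϖ : ↥O} (hϖ : Irreducible ϖ) :
    ¬ IsField (chartAlg ↥O (FF K N) {s} ⧸
      Ideal.span {algebraMap ↥O (chartAlg ↥O (FF K N) {s}) ϖ}) := by
  intro hfield
  set R := chartAlg ↥O (FF K N) {s} with hR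
  set σ : LaurentSeries κ := theta K N O ⟨s, hs⟩ with hσ
  have hσ0 : σ ≠ 0 := fun h0 => htr (h0 ▸ isAlgebraic_zero)
  set sR : R := chartGen (Set.mem_singleton s) with hsR
  have hsRθ : theta K N O (inclG K N O hs sR) = σ := rfl
  -- an inverse of `s` modulo `ϖ`
  have hne : (Ideal.Quotient.mk (Ideal.span {algebraMap ↥O R ϖ}) sR) ≠ 0 := by
    intro h0
    rw [Ideal.Quotient.eq_zero_iff_mem, Ideal.mem_span_singleton] at h0
    exact not_dvd_of_theta_ne_zero K N O hs hϖ sR (by rw [hsRθ]; exact hσ0) h0
  obtain ⟨vbar, hv⟩ := hfield.mul_inv_cancel hne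
  obtain ⟨v, rfl⟩ := Ideal.Quotient.mk_surjective vbar
  rw [← map_mul, ← map_one (Ideal.Quotient.mk _), Ideal.Quotient.eq, Ideal.mem_span_singleton] at hv
  have hθv : σ * theta K N O (inclG K N O hs v) = 1 := by
    obtain ⟨w, hw⟩ := hv
    have h1 : theta K N O (inclG K N O hs (sR * v - 1)) = 0 := by
      rw [hw, map_mul, map_mul, inclG_algebraMap, theta_algebraMap, residue_irreducible K O hϖ,
        map_zero, zero_mul]
    rw [map_sub, map_sub, map_mul, map_mul, map_one, map_one, hsRθ, sub_eq_zero] at h1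
    exact h1
  -- the subring `κ[σ]`, as the image of `O[s]`
  let f₀ : ↥(Algebra.adjoin ↥O ({s} : Set (FF K N))) →+* ↥(chartAlg ↥O (FF K N) {s}) :=
    (Subalgebra.inclusion (adjoin_le_chartAlg {s})).toRingHom
  let i₀ : ↥(Algebra.adjoin ↥O ({s} : Set (FF K N))) →+* gaussSubalgebra K N O :=
    (inclG K N O hs).comp f₀
  let S : Subring (LaurentSeries κ) := ((theta K N O).comp i₀).range
  have hσS : σ ∈ S := ⟨⟨s, Algebra.subset_adjoin rfl⟩, rfl⟩
  -- `θ v` is integral over `S`
  have hint : IsIntegral S (theta K N O (inclG K N O hs v)) := by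
    obtain ⟨P, hP, hPv⟩ := (mem_chartAlg_iff).mp v.2
    have hPv' : P.eval₂ f₀ v = 0 := by
      apply Subtype.ext
      have h1 := Polynomial.hom_eval₂ P f₀ (SubringClass.subtype (chartAlg ↥O (FF K N) {s})) v
      exact h1.trans hPv
    have h3 := Polynomial.hom_eval₂ P f₀ (inclG K N O hs) v
    rw [hPv', map_zero] at h3
    have h4 := Polynomial.hom_eval₂ P i₀ (theta K N O) (inclG K N O hs v)
    rw [← h3, map_zero] at h4
    refine ⟨P.map ((theta K N O).comp i₀).rangeRestrict, hP.map _, ?_⟩
    rw [eval₂_map]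
    exact h4.symm
  have hvS : theta K N O (inclG K N O hs v) ∈ S := by
    refine mem_of_isIntegral_of_inv_mem S hint ?_
    have : (theta K N O (inclG K N O hs v))⁻¹ = σ := by
      rw [eq_comm, ← mul_eq_one_iff_eq_inv₀]
      · exact hθv
      · intro h0
        rw [h0, mul_zero] at hθv
        exact zero_ne_one hθv
    rw [this]
    exact hσS
  -- contradiction with transcendence
  obtain ⟨b, hb⟩ := hvS
  have hbmem : (b : FF K N) ∈ (Polynomial.aeval (R := ↥O) s).range := by
    rw [← Algebra.adjoin_singleton_eq_range_aeval]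
    exact b.2
  obtain ⟨Q, hQ⟩ := hbmem
  replace hQ : Polynomial.aeval s Q = (b : FF K N) := hQ
  have hbθ : (theta K N O).comp i₀ b = Polynomial.aeval σ (Q.map (IsLocalRing.residue ↥O)) := by
    rw [hσ, ← theta_aeval]
    show theta K N O _ = theta K N O _
    congr 1
    apply Subtype.ext
    rw [Polynomial.aeval_subalgebra_coe]
    exact hQ.symm
  rw [hbθ] at hb
  rw [← hb] at hθv
  have h5 : Polynomial.aeval σ (Polynomial.X * Q.map (IsLocalRing.residue ↥O) - 1) = 0 := by
    rw [map_sub, map_mul, Polynomial.aeval_X, map_one, hθv, sub_self]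
  have h6 := (transcendental_iff.mp htr) _ h5
  have h7 := congrArg (fun P => Polynomial.coeff P 0) h6
  simp at h7

end Chart

end Fermat.Agent.N4.S18Glue
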