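/-
N4 block d (S18 glue), file 5: the contradiction at a fixed base `(K, O)` (see `Base.lean`).
-/
import Fermat.Agent.N4.S18Glue.NotField
import Fermat.Agent.N4.S18Glue.Horizontal

set_option autoImplicit false
set_option linter.unusedSectionVars false
set_option linter.style.haveILetI false

open ModularCurve Polynomial AlgebraicCurve IntermediateField

namespace Fermat.Agent.N4.S18Glue

open Fermat.Agent.N4.Setting Fermat.Agent.N4.Chart Fermat.Agent.N4.FibreEmbedding
  Fermat.Agent.S28.Gauss Fermat.Agent.N4.Cover.Globalize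

local notation "Qbar" => AlgebraicClosure ℚ

variable (K : Type) [Field K] [CharZero K] [Algebra K Qbar] [Algebra.IsAlgebraic K Qbar]
  (N : ℕ) [NeZero N] (O : Subring K) [IsDiscreteValuationRing ↥O] [IsFractionRing ↥O K]

set_option maxHeartbeats 3200000 in
/-- **The contradiction at a fixed base.** -/
theorem no_torsion_at_base
    (hfin : (fibreIdeal K N O (Rfin K N O)).IsPrime)
    (hinf : (fibreIdeal K N O (Rinf K N O)).IsPrime)
    (hsmooth : SmoothStatement K N O)
    {p : ℕ} (hp : p.Prime) (hpO : IsUnit ((p : ℕ) : ↥O)) {ζ : ↥O} (hζ : IsPrimitiveRoot ζ p)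
    (f g : gaussSubalgebra K N O) (hg : theta K N O g ≠ 0)
    (hfg : theta K N O f = theta K N O g ^ p)
    (hhor : ∀ P : Place Qbar ↥(modularFunctionFieldBar N),
      (p : ℤ) ∣ P.ord (phiK K N (f : FF K N)))
    (hnp : ∀ h : ↥(modularFunctionFieldBar N), h ^ p ≠ phiK K N (f : FF K N)) : False := by
  obtain ⟨ϖ, hϖ⟩ := IsDiscreteValuationRing.exists_irreducible ↥O
  have hf : theta K N O f ≠ 0 := by rw [hfg]; exact pow_ne_zero _ hg
  have hf0 : (f : FF K N) ≠ 0 := coe_ne_zero_of_theta_ne_zero K N O f hf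
  -- irreducibility
  have hirrF : Irreducible (X ^ p - C (phiK K N (f : FF K N)) :
      (↥(modularFunctionFieldBar N))[X]) :=
    (X_pow_sub_C_irreducible_iff_of_prime hp).mpr hnp
  have hirr0 : Irreducible (X ^ p - C (f : FF K N) : (FF K N)[X]) := by
    refine (X_pow_sub_C_irreducible_iff_of_prime hp).mpr fun b hb => hnp (phiK K N b) ?_
    rw [← map_pow, hb]
  haveI : Fact (Irreducible (X ^ p - C (f : FF K N) : (FF K N)[X])) := ⟨hirr0⟩
  -- the two charts
  have hsp := jF_mem_gaussSubalgebra K N O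
  have hsm := jF_inv_mem_gaussSubalgebra K N O
  have htrp : Transcendental (IsLocalRing.ResidueField ↥O)
      (theta K N O ⟨jF K N, hsp⟩) := by
    rw [theta_jF]
    exact Fermat.Agent.S24.FFBasics.transcendental_jqModC _
  have htrm : Transcendental (IsLocalRing.ResidueField ↥O)
      (theta K N O ⟨(jF K N)⁻¹, hsm⟩) := by
    rw [theta_jF_inv]
    intro halg
    exact Fermat.Agent.S24.FFBasics.transcendental_jqModC _ (by simpa using halg.inv)
  have hfracp := FFAlgebraic.exists_mul_mem_chartAlg K N O _ (FFAlgebraic.transcendental_jF K N)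
      (FFAlgebraic.isAlgebraic_jF K N)
  have hfracm := FFAlgebraic.exists_mul_mem_chartAlg K N O _
      (FFAlgebraic.transcendental_jF_inv K N) (FFAlgebraic.isAlgebraic_jF_inv K N)
  obtain ⟨hDp, hDm⟩ := hsmooth
  rw [fibreIdeal_eq_span K N O hϖ] at hDp hDm
  haveI := ModPolySetting.finiteDimensional_FF K N
  -- the Kummer extension
  let F' := AdjoinRoot (X ^ p - C (f : FF K N) : (FF K N)[X])
  have ht : (AdjoinRoot.root (X ^ p - C (f : FF K N) : (FF K N)[X])) ^ p =
      algebraMap (FF K N) F' (f : FF K N) := by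
    have h := AdjoinRoot.eval₂_root (X ^ p - C (f : FF K N) : (FF K N)[X])
    rw [eval₂_sub, eval₂_pow, eval₂_X, eval₂_C, sub_eq_zero] at h
    exact h
  have htop : (FF K N)⟮AdjoinRoot.root (X ^ p - C (f : FF K N) : (FF K N)[X])⟯ = ⊤ :=
    IntermediateField.adjoin_eq_top_of_algebra _ _ (AdjoinRoot.adjoinRoot_eq_top)
  have halg : ∀ x : F', IsAlgebraic K x → x ∈ (algebraMap K F').range := by
    letI := algKBar K N
    haveI := isScalarTower_KBar K N
    exact Fermat.Agent.N4.KummerConst.algClosed_in_kummer (K := K) (L := Qbar) (phiKAlg K N)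
      (algClosed_in_FF K N) hp (f : FF K N) hirrF _ ht htop
  exact Fermat.Agent.N4.Cover.Main.no_split_cover (O := ↥O) (K₀ := K) (F₀ := FF K N) (F' := F')
    (jF K N) (FFAlgebraic.transcendental_jF K N) hϖ
    hDp (not_isField_fibre K N O hsp htrp hϖ) hDm (not_isField_fibre K N O hsm htrm hϖ)
    (gaussSubalgebra K N O)
    (chartAlg_le_gaussSubalgebra K N O (Set.singleton_subset_iff.mpr hsp))
    (chartAlg_le_gaussSubalgebra K N O (Set.singleton_subset_iff.mpr hsm))
    (theta K N O)
    (by rw [theta_algebraMap, residue_irreducible K O hϖ, map_zero])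
    (fun x hx => dvd_of_theta_eq_zero K N O hsp htrp hfin hϖ x hx)
    (fun x hx => dvd_of_theta_eq_zero K N O hsm htrm hinf hϖ x hx)
    hp hpO hζ hf0 ht htop hirr0 halg
    (horizontal_of_ord K N (f : FF K N) hf0 hhor)
    (vertical_of_theta K N O hsp htrp hfin hfracp hϖ f g hg hfg)
    (vertical_of_theta K N O hsm htrm hinf hfracm hϖ f g hg hfg)

end Fermat.Agent.N4.S18Glue
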