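/-
N4 block d (S18 glue), file 9: the assembly at a fixed base.

Given the data of `Data.exists_data` descended to a base `(K, O = A ∩ K)` with prime and Dedekind special
fibres, algebraically closed residue field `κ(O) = κ(A)`, `p ∈ Oˣ`, `ζ_p ∈ O`: contradiction, by
`Const.const_of_ord_eq_zero_fibre` (the quotient `ȳ₁ / (ȳ₂ ḡ^p)` is a constant, hence a `p`-th power) and
`BaseMain.no_torsion_at_base`.
-/
import Fermat.Agent.N4.S18Glue.BaseMain
import Fermat.Agent.N4.S18Glue.Const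

set_option autoImplicit false
set_option linter.unusedSectionVars false
set_option linter.style.haveILetI false

open ModularCurve Polynomial AlgebraicCurve IntermediateField

namespace Fermat.Agent.N4.S18Glue

open Fermat.Agent.N4.Setting Fermat.Agent.N4.Chart Fermat.Agent.N4.FibreEmbedding
  Fermat.Agent.S28.Gauss Fermat.Agent.N4.BigDVR

local notation "Qbar" => AlgebraicClosure ℚ

section

variable (N : ℕ) [NeZero N] (A : ValuationSubring Qbar) (K : Type) [Field K] [CharZero K]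
  [Algebra K Qbar] [Algebra.IsAlgebraic K Qbar] [IsDiscreteValuationRing ↥(trS A K)]

set_option quotPrecheck false in
local notation "kA" => IsLocalRing.ResidueField ↥A
set_option quotPrecheck false in
local notation "Fb" => modularFunctionFieldBar N
set_option quotPrecheck false in
local notation "Fk" => modularFunctionFieldFullC (IsLocalRing.ResidueField ↥A) N

theorem thetaA_algebraMap (a : ↥(trS A K)) :
    thetaA N A K (algebraMap ↥(trS A K) (gaussSubalgebra K N (trS A K)) a) =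
      algebraMap kA (LaurentSeries kA) (ebar A K (IsLocalRing.residue ↥(trS A K) a)) := by
  rw [thetaA_apply, theta_algebraMap, algebraMap_laurentSeries_eq_single]
  exact coeffMap_single _ _ _

theorem theta_ne_zero_of_thetaA_ne_zero (g : gaussSubalgebra K N (trS A K))
    (h : thetaA N A K g ≠ 0) : theta K N (trS A K) g ≠ 0 := by
  intro h0
  apply h
  rw [thetaA_apply, h0, map_zero]

/-- The image in the Gauss ring of an integral series lying in `FF K N`. -/
noncomputable def gaussOfSeries (y' : LaurentSeries ↥(trS A K))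
    (hF : coeffMap (trS A K).subtype y' ∈ modularFunctionFieldFullC K N) :
    gaussSubalgebra K N (trS A K) :=
  ⟨⟨coeffMap (trS A K).subtype y', hF⟩, by
    rw [mem_gaussSubalgebra_iff]
    exact emb_mem_gaussRing y'⟩

theorem thetaA_gaussOfSeries (y' : LaurentSeries ↥(trS A K))
    (hF : coeffMap (trS A K).subtype y' ∈ modularFunctionFieldFullC K N) :
    thetaA N A K (gaussOfSeries N A K y' hF) =
      coeffMap (IsLocalRing.residue ↥A) (coeffMap (inclA A K) y') :=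
  thetaA_of_emb N A K _ y' rfl

theorem coe_phiK_gaussOfSeries (y' : LaurentSeries ↥(trS A K))
    (hF : coeffMap (trS A K).subtype y' ∈ modularFunctionFieldFullC K N) :
    ((phiK K N (gaussOfSeries N A K y' hF : FF K N) : ↥Fb) : LaurentSeries Qbar) =
      coeffMap A.subtype (coeffMap (inclA A K) y') := by
  rw [coe_phiK, coeffMap_subtype_inclA]
  rfl

set_option synthInstance.maxHeartbeats 400000 in
set_option maxHeartbeats 1600000 in
/-- **The contradiction at a fixed base**, from the data of `Data.exists_data`. -/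
theorem contradiction_at [IsAlgClosed kA] (hsurj : Function.Surjective (ebar A K))
    (hfin : (fibreIdeal K N (trS A K) (Rfin K N (trS A K))).IsPrime)
    (hinf : (fibreIdeal K N (trS A K) (Rinf K N (trS A K))).IsPrime)
    (hsmooth : SmoothStatement K N (trS A K))
    {p : ℕ} (hp : p.Prime) (hpO : IsUnit ((p : ℕ) : ↥(trS A K))) {ζ : ↥(trS A K)}
    (hζ : IsPrimitiveRoot ζ p)
    (y₁ y₂ : LaurentSeries ↥A) (hy₁ : coeffMap A.subtype y₁ ∈ Fb)
    (hy₂ : coeffMap A.subtype y₂ ∈ Fb)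
    (hk₁ : coeffMap (IsLocalRing.residue ↥A) y₁ ∈ Fk)
    (hk₂ : coeffMap (IsLocalRing.residue ↥A) y₂ ∈ Fk) (gbar : ↥Fk)
    (hne₁ : coeffMap (IsLocalRing.residue ↥A) y₁ ≠ 0)
    (hne₂ : coeffMap (IsLocalRing.residue ↥A) y₂ ≠ 0) (hg0 : gbar ≠ 0)
    (hordP : ∀ P : Place Qbar ↥Fb, (p : ℤ) ∣
      P.ord (⟨_, hy₁⟩ : ↥Fb) - P.ord (⟨_, hy₂⟩ : ↥Fb))
    (hnp : ∀ w : ↥Fb, (⟨_, hy₁⟩ : ↥Fb) ≠ w ^ p * ⟨_, hy₂⟩)
    (hordQ : ∀ Q : Place kA ↥Fk,
      Q.ord (⟨_, hk₁⟩ : ↥Fk) - Q.ord (⟨_, hk₂⟩ : ↥Fk) = p * Q.ord gbar)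
    (y₁' y₂' : LaurentSeries ↥(trS A K)) (h₁ : coeffMap (inclA A K) y₁' = y₁)
    (h₂ : coeffMap (inclA A K) y₂' = y₂)
    (hF₁ : coeffMap (trS A K).subtype y₁' ∈ modularFunctionFieldFullC K N)
    (hF₂ : coeffMap (trS A K).subtype y₂' ∈ modularFunctionFieldFullC K N)
    (g₀ : gaussSubalgebra K N (trS A K)) (hg₀ : thetaA N A K g₀ = (gbar : LaurentSeries kA)) :
    False := by
  -- the two series in the Gauss ring
  set f₁ := gaussOfSeries N A K y₁' hF₁ with hf₁
  set f₂ := gaussOfSeries N A K y₂' hF₂ with hf₂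
  have hθ₁ : thetaA N A K f₁ = coeffMap (IsLocalRing.residue ↥A) y₁ := by
    rw [hf₁, thetaA_gaussOfSeries, h₁]
  have hθ₂ : thetaA N A K f₂ = coeffMap (IsLocalRing.residue ↥A) y₂ := by
    rw [hf₂, thetaA_gaussOfSeries, h₂]
  have hθ₂' : theta K N (trS A K) f₂ ≠ 0 :=
    theta_ne_zero_of_thetaA_ne_zero N A K f₂ (by rw [hθ₂]; exact hne₂)
  have hf₂0 : (f₂ : FF K N) ≠ 0 := coe_ne_zero_of_theta_ne_zero K N (trS A K) f₂ hθ₂'
  set f₂i : gaussSubalgebra K N (trS A K) :=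
    ⟨_, inv_mem_gaussSubalgebra K N (trS A K) f₂ hθ₂'⟩ with hf₂i
  have hf₂mul : f₂ * f₂i = 1 := Subtype.ext (mul_inv_cancel₀ hf₂0)
  have hθ₂i : thetaA N A K f₂i = (coeffMap (IsLocalRing.residue ↥A) y₂)⁻¹ := by
    have h := congrArg (thetaA N A K) hf₂mul
    rw [map_mul, map_one, hθ₂] at h
    exact eq_inv_of_mul_eq_one_right h
  set f : gaussSubalgebra K N (trS A K) := f₁ * f₂i with hf
  have hθf : thetaA N A K f =
      coeffMap (IsLocalRing.residue ↥A) y₁ * (coeffMap (IsLocalRing.residue ↥A) y₂)⁻¹ := by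
    rw [hf, map_mul, hθ₁, hθ₂i]
  -- the constant
  have hk₁0 : (⟨_, hk₁⟩ : ↥Fk) ≠ 0 := fun h0 => hne₁ (congrArg Subtype.val h0)
  have hk₂0 : (⟨_, hk₂⟩ : ↥Fk) ≠ 0 := fun h0 => hne₂ (congrArg Subtype.val h0)
  set c : ↥Fk := ⟨_, hk₁⟩ * (⟨_, hk₂⟩ : ↥Fk)⁻¹ * (gbar ^ p)⁻¹ with hc
  have hc0 : c ≠ 0 :=
    mul_ne_zero (mul_ne_zero hk₁0 (inv_ne_zero hk₂0)) (inv_ne_zero (pow_ne_zero _ hg0))
  have hcord : ∀ Q : Place kA ↥Fk, Q.ord c = 0 := by
    intro Q
    rw [hc, Q.ord_mul (mul_ne_zero hk₁0 (inv_ne_zero hk₂0)) (inv_ne_zero (pow_ne_zero _ hg0)),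
      Q.ord_mul hk₁0 (inv_ne_zero hk₂0), Q.ord_inv, Q.ord_inv, ← zpow_natCast, Q.ord_zpow]
    have := hordQ Q
    linarith
  obtain ⟨a, ha⟩ := const_of_ord_eq_zero_fibre N A K hsurj hfin hinf hsmooth c hc0 hcord
  have ha0 : a ≠ 0 := by
    rintro rfl
    rw [map_zero] at ha
    exact hc0 ha.symm
  obtain ⟨b, hb⟩ := IsAlgClosed.exists_pow_nat_eq a hp.pos
  have hb0 : b ≠ 0 := by
    rintro rfl
    rw [zero_pow hp.ne_zero] at hb
    exact ha0 hb.symm
  obtain ⟨b', rfl⟩ := hsurj b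
  obtain ⟨c₁, rfl⟩ := IsLocalRing.residue_surjective b'
  -- the function `g`
  set g : gaussSubalgebra K N (trS A K) :=
    algebraMap ↥(trS A K) (gaussSubalgebra K N (trS A K)) c₁ * g₀ with hg
  have hθg : thetaA N A K g =
      algebraMap kA (LaurentSeries kA) (ebar A K (IsLocalRing.residue ↥(trS A K) c₁)) *
        (gbar : LaurentSeries kA) := by
    rw [hg, map_mul, thetaA_algebraMap, hg₀]
  have hθg0 : thetaA N A K g ≠ 0 := by
    rw [hθg]
    refine mul_ne_zero ?_ (fun h0 => hg0 (Subtype.ext h0))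
    rw [Ne, map_eq_zero]
    exact hb0
  have hgbar0 : (gbar : LaurentSeries kA) ≠ 0 := fun h0 => hg0 (Subtype.ext h0)
  have hfg : thetaA N A K f = thetaA N A K g ^ p := by
    rw [hθf, hθg, mul_pow, ← map_pow, hb]
    have hcc : ((c : ↥Fk) : LaurentSeries kA) = algebraMap kA (LaurentSeries kA) a := by
      rw [← ha]; rfl
    rw [← hcc, hc]
    show _ = (coeffMap (IsLocalRing.residue ↥A) y₁ * (coeffMap (IsLocalRing.residue ↥A) y₂)⁻¹ *
      ((gbar : LaurentSeries kA) ^ p)⁻¹) * (gbar : LaurentSeries kA) ^ p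
    rw [mul_assoc, inv_mul_cancel₀ (pow_ne_zero _ hgbar0), mul_one]
  have hfg' : theta K N (trS A K) f = theta K N (trS A K) g ^ p := by
    apply coeffMap_ebar_injective A K
    rw [map_pow]
    exact hfg
  -- the image of `f` over `Q̄`
  have hphi : phiK K N (f : FF K N) = (⟨_, hy₁⟩ : ↥Fb) * (⟨_, hy₂⟩ : ↥Fb)⁻¹ := by
    have e₁ : phiK K N (f₁ : FF K N) = (⟨_, hy₁⟩ : ↥Fb) := by
      apply Subtype.ext
      rw [hf₁, coe_phiK_gaussOfSeries, h₁]
    have e₂ : phiK K N (f₂ : FF K N) = (⟨_, hy₂⟩ : ↥Fb) := by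
      apply Subtype.ext
      rw [hf₂, coe_phiK_gaussOfSeries, h₂]
    have e₃ : (f : FF K N) = (f₁ : FF K N) * (f₂ : FF K N)⁻¹ := rfl
    rw [e₃, map_mul, map_inv₀, e₁, e₂]
  have hy₁0 : (⟨_, hy₁⟩ : ↥Fb) ≠ 0 := by
    intro h0
    have h1 : coeffMap A.subtype y₁ = 0 := congrArg Subtype.val h0
    have h2 : y₁ = 0 := coeffMap_subtype_injective (h1.trans (map_zero _).symm)
    exact hne₁ (by rw [h2, map_zero])
  have hy₂0 : (⟨_, hy₂⟩ : ↥Fb) ≠ 0 := by
    intro h0
    have h1 : coeffMap A.subtype y₂ = 0 := congrArg Subtype.val h0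
    have h2 : y₂ = 0 := coeffMap_subtype_injective (h1.trans (map_zero _).symm)
    exact hne₂ (by rw [h2, map_zero])
  refine no_torsion_at_base K N (trS A K) hfin hinf hsmooth hp hpO hζ f g
    (theta_ne_zero_of_thetaA_ne_zero N A K g hθg0) hfg' ?_ ?_
  · intro P
    rw [hphi, P.ord_mul hy₁0 (inv_ne_zero hy₂0), P.ord_inv, ← sub_eq_add_neg]
    exact hordP P
  · intro w hw
    rw [hphi] at hw
    apply hnp w
    rw [hw, mul_assoc, inv_mul_cancel₀ hy₂0, mul_one]

end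

end Fermat.Agent.N4.S18Glue
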