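/-
N4 block d (S18 glue), file 10: S18 from the two targets (∗) and (S).

`result_of_targets` : the frozen statement S18 (injectivity of the reduction map on prime-to-`ℓ` torsion)
from the deliverables of blocks S28a (`StarStatement` for every good base, with `ω ∈ K` when `ℓ = 2`) and
Sreg (`Setting.SmoothTarget`).
-/
import Fermat.Agent.N4.S18Glue.Main

set_option autoImplicit false
set_option linter.unusedSectionVars false
set_option linter.style.haveILetI false

open ModularCurve Polynomial AlgebraicCurve IntermediateField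

namespace Fermat.Agent.N4.S18Glue

open Fermat.Agent.N4.Setting Fermat.Agent.N4.Chart Fermat.Agent.N4.FibreEmbedding
  Fermat.Agent.S28.Gauss Fermat.Agent.N4.BigDVR

local notation "Qbar" => AlgebraicClosure ℚ

section Roots

variable (A : ValuationSubring Qbar)

/-- An integer prime to the residue characteristic is a unit of `A`. -/
theorem natCast_not_mem_nonunits_of_not_dvd {ℓ n : ℕ} (hℓ : ℓ.Prime)
    (hA : ((ℓ : ℕ) : Qbar) ∈ A.nonunits) (hn : ¬ ℓ ∣ n) : ((n : ℕ) : Qbar) ∉ A.nonunits := by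
  intro hpA
  have hcop : IsCoprime (n : ℤ) (ℓ : ℤ) :=
    Nat.isCoprime_iff_coprime.mpr ((Nat.Prime.coprime_iff_not_dvd hℓ).mpr hn).symm
  obtain ⟨u, v, huv⟩ := hcop
  have h1 : ((n : ℕ) : ↥A) ∈ IsLocalRing.maximalIdeal ↥A := by
    rw [← ValuationSubring.coe_mem_nonunits_iff]
    simpa using hpA
  have h2 : ((ℓ : ℕ) : ↥A) ∈ IsLocalRing.maximalIdeal ↥A := by
    rw [← ValuationSubring.coe_mem_nonunits_iff]
    simpa using hA
  have h3 : (1 : ↥A) ∈ IsLocalRing.maximalIdeal ↥A := by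
    have : (1 : ↥A) = (u : ↥A) * ((n : ℕ) : ↥A) + (v : ↥A) * ((ℓ : ℕ) : ↥A) := by
      have := congrArg (Int.cast : ℤ → ↥A) huv
      push_cast at this
      exact this.symm
    rw [this]
    exact Ideal.add_mem _ (Ideal.mul_mem_left _ _ h1) (Ideal.mul_mem_left _ _ h2)
  exact (Ideal.ne_top_iff_one _).mp (IsLocalRing.maximalIdeal.isMaximal ↥A).ne_top h3

/-- A prime different from the residue characteristic is a unit of `A`. -/
theorem natCast_not_mem_nonunits {ℓ p : ℕ} (hℓ : ℓ.Prime) (hA : ((ℓ : ℕ) : Qbar) ∈ A.nonunits)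
    (hp : p.Prime) (hpℓ : p ≠ ℓ) : ((p : ℕ) : Qbar) ∉ A.nonunits :=
  natCast_not_mem_nonunits_of_not_dvd A hℓ hA fun h =>
    hpℓ ((Nat.prime_dvd_prime_iff_eq hℓ hp).mp h).symm

variable (K : Type) [Field K] [Algebra K Qbar]

theorem isUnit_natCast_trS {p : ℕ} (hpA : ((p : ℕ) : Qbar) ∉ A.nonunits) :
    IsUnit ((p : ℕ) : ↥(trS A K)) := by
  rw [← isUnit_trIncl_iff A K, map_natCast]
  by_contra h
  apply hpA
  have h1 : ((p : ℕ) : ↥A) ∈ IsLocalRing.maximalIdeal ↥A := h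
  rw [← ValuationSubring.coe_mem_nonunits_iff] at h1
  simpa using h1

/-- Roots of unity of order prime to the residue characteristic lie in `A ∩ K` when `K` contains
them. -/
theorem exists_primitiveRoot_trS (hroots : ∀ ξ ∈ goodRoots A, ξ ∈ (algebraMap K Qbar).range)
    {p : ℕ} (hp : 0 < p) (hpA : ((p : ℕ) : Qbar) ∉ A.nonunits) :
    ∃ ζ : ↥(trS A K), IsPrimitiveRoot ζ p := by
  haveI : NeZero ((p : ℕ) : ℚ) := ⟨Nat.cast_ne_zero.mpr hp.ne'⟩
  obtain ⟨ζ, hζ⟩ := HasEnoughRootsOfUnity.exists_primitiveRoot Qbar p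
  obtain ⟨ζK, hζK⟩ := hroots ζ ⟨p, hpA, hζ.pow_eq_one⟩
  have hζA : ζ ∈ A :=
    mem_of_isIntegral A (R := ℤ) (fun r => by simp)
      (hζ.isIntegral hp)
  have hmem : ζK ∈ tr A K := by
    rw [mem_tr_iff, hζK]
    exact hζA
  refine ⟨⟨ζK, hmem⟩, ?_⟩
  have hinj : Function.Injective ((algebraMap K Qbar).comp (trS A K).subtype) :=
    (algebraMap K Qbar).injective.comp Subtype.val_injective
  refine IsPrimitiveRoot.of_map_of_injective (f := (algebraMap K Qbar).comp (trS A K).subtype)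
    ?_ hinj
  show IsPrimitiveRoot (algebraMap K Qbar ζK) p
  rw [hζK]
  exact hζ

/-- Roots of unity of order prime to the residue characteristic lie in `K` when `K` contains them. -/
theorem exists_primitiveRoot_base (hroots : ∀ ξ ∈ goodRoots A, ξ ∈ (algebraMap K Qbar).range)
    {n : ℕ} (hn : n ≠ 0) (hnA : ((n : ℕ) : Qbar) ∉ A.nonunits) :
    ∃ ζ : K, IsPrimitiveRoot ζ n := by
  obtain ⟨ζ, hζ⟩ := exists_primitiveRoot_trS A K hroots (Nat.pos_of_ne_zero hn) hnA
  exact ⟨(ζ : K), hζ.map_of_injective (f := (trS A K).subtype) Subtype.val_injective⟩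

/-- A primitive cube root of unity in `K`. -/
theorem exists_omega (hroots : ∀ ξ ∈ goodRoots A, ξ ∈ (algebraMap K Qbar).range)
    (h3 : ((3 : ℕ) : Qbar) ∉ A.nonunits) : ∃ z : K, z ^ 2 + z + 1 = 0 := by
  haveI : NeZero ((3 : ℕ) : ℚ) := ⟨by norm_num⟩
  obtain ⟨ω, hω⟩ := HasEnoughRootsOfUnity.exists_primitiveRoot Qbar 3
  obtain ⟨z, hz⟩ := hroots ω ⟨3, h3, hω.pow_eq_one⟩
  refine ⟨z, ?_⟩
  apply (algebraMap K Qbar).injective
  rw [map_add, map_add, map_pow, map_one, map_zero, hz]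
  have h1 : ω ^ 3 = 1 := hω.pow_eq_one
  have h2 : ω ≠ 1 := hω.ne_one (by norm_num)
  have h4 : (ω - 1) * (ω ^ 2 + ω + 1) = 0 := by ring_nf; rw [h1]; ring
  rcases mul_eq_zero.mp h4 with h | h
  · exact absurd (sub_eq_zero.mp h) h2
  · exact h

end Roots

/-- The deliverable of block S28a in the form used here: (∗) for every good base, with a primitive
cube root of unity in `K` when `ℓ = 2`. -/
def StarInput : Prop :=
  ∀ (K : Type) [Field K] [CharZero K] [Algebra.IsAlgebraic ℚ K] (N : ℕ) [NeZero N] (O : Subring K)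
    [IsDiscreteValuationRing ↥O] (ℓ : ℕ), GoodBase K N O ℓ →
      (ℓ = 2 → ∃ z : K, z ^ 2 + z + 1 = 0) → StarStatement K N O

/-- The deliverable of block Sreg in the form used here: (S) for every good base with algebraically
closed residue field containing all roots of unity of order prime to `ℓ`. -/
def SmoothInput : Prop :=
  ∀ (K : Type) [Field K] [CharZero K] [Algebra.IsAlgebraic ℚ K] (N : ℕ) [NeZero N] (O : Subring K)
    [IsDiscreteValuationRing ↥O] [IsAlgClosed (IsLocalRing.ResidueField ↥O)] (ℓ : ℕ),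
    GoodBase K N O ℓ → (∀ n : ℕ, n ≠ 0 → ¬ ℓ ∣ n → ∃ ζ : K, IsPrimitiveRoot ζ n) →
      SmoothStatement K N O

theorem smoothInput_of_smoothTarget (h : SmoothTarget) : SmoothInput :=
  fun K _ _ _ N _ O _ _ ℓ hG _ => h K N O ℓ hG

/-- The shape announced by block Sreg: `ζ_N ∈ K`, and `ω ∈ K` when `ℓ = 2`. -/
theorem smoothInput_of_roots
    (h : ∀ (K : Type) [Field K] [CharZero K] [Algebra.IsAlgebraic ℚ K] (N : ℕ) [NeZero N]
      (O : Subring K) [IsDiscreteValuationRing ↥O] [IsAlgClosed (IsLocalRing.ResidueField ↥O)]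
      (ℓ : ℕ), GoodBase K N O ℓ → (∃ ζ : K, IsPrimitiveRoot ζ N) →
        (ℓ = 2 → ∃ z : K, z ^ 2 + z + 1 = 0) → SmoothStatement K N O) : SmoothInput := by
  intro K _ _ _ N _ O _ _ ℓ hG hroots
  refine h K N O ℓ hG (hroots N (NeZero.ne N) hG.not_dvd) fun h2 => ?_
  obtain ⟨ω, hω⟩ := hroots 3 (by norm_num) (by rw [h2]; norm_num)
  refine ⟨ω, ?_⟩
  have h1 : ω ^ 3 = 1 := hω.pow_eq_one
  have h2 : ω ≠ 1 := hω.ne_one (by norm_num)
  have h4 : (ω - 1) * (ω ^ 2 + ω + 1) = 0 := by ring_nf; rw [h1]; ring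
  rcases mul_eq_zero.mp h4 with h | h
  · exact absurd (sub_eq_zero.mp h) h2
  · exact h

set_option synthInstance.maxHeartbeats 400000 in
set_option maxHeartbeats 1600000 in
/-- **S18 from (∗) and (S), for an arbitrary place map `r` satisfying the specification.** -/
theorem eq_zero_of_reductionPic0Along_eq_zero (hstar : StarInput) (hsmooth : SmoothInput)
    (N : ℕ) [NeZero N] {ℓ : ℕ} [Fact ℓ.Prime] (hℓN : ¬ ℓ ∣ N)
    (A : ValuationSubring Qbar) (hA : A.LiesOverPrime ℓ)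
    (r : Place Qbar ↥(modularFunctionFieldBar N) →
      Place (IsLocalRing.ResidueField ↥A)
        ↥(modularFunctionFieldFullC (IsLocalRing.ResidueField ↥A) N))
    (hr : IsPlaceReductionModL A N r)
    (hgen : PrincipalGeneratedByIntegral A (IsLocalRing.residue ↥A) N)
    (m : ℕ) (hm : ¬ ℓ ∣ m) (z : ModularCurve.JZero N)
    (hmz : m • z = 0) (hz : reductionPic0Along r hr hgen z = 0) : z = 0 := by
  classical
  by_contra hz0
  have hℓ : ℓ.Prime := Fact.out
  have hℓA : ((ℓ : ℕ) : Qbar) ∈ A.nonunits := hA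
  obtain ⟨p, hp, hpℓ, y₁, y₂, hy₁, hy₂, hk₁, hk₂, gbar, hne₁, hne₂, hg0, hordP, hnp, hordQ⟩ :=
    exists_data_along r hr hgen hm hmz hz hz0
  obtain ⟨T₁, hT₁⟩ := exists_descent_series N A y₁ hy₁
  obtain ⟨T₂, hT₂⟩ := exists_descent_series N A y₂ hy₂
  obtain ⟨T₃, hT₃⟩ := exists_lift_residue N A gbar.2
  obtain ⟨K', hT, hDVR, hAC, hGB, hbij, hroots⟩ :=
    exists_goodBase A hℓ hA (T₁ ∪ T₂ ∪ T₃) N hℓN
  haveI := isAlgebraic_rat K'
  haveI : IsDiscreteValuationRing ↥(trS A ↥K') := hDVR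
  haveI : Algebra.IsAlgebraic ℚ Qbar := AlgebraicClosure.isAlgebraic ℚ
  haveI : Algebra.IsAlgebraic ↥K' Qbar := Algebra.IsAlgebraic.tower_top (K := ℚ) ↥K'
  haveI : IsAlgClosed (IsLocalRing.ResidueField ↥A) := isAlgClosed_residueField A
  have hrange : ∀ t ∈ T₁ ∪ T₂ ∪ T₃, t ∈ (algebraMap ↥K' Qbar).range :=
    fun t ht => ⟨⟨t, hT t ht⟩, rfl⟩
  have hroots' : ∀ ξ ∈ goodRoots A, ξ ∈ (algebraMap ↥K' Qbar).range :=
    fun ξ hξ => ⟨⟨ξ, hroots ξ hξ⟩, rfl⟩
  -- the two targets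
  have hω : ℓ = 2 → ∃ z : ↥K', z ^ 2 + z + 1 = 0 := by
    intro h2
    refine exists_omega A ↥K' hroots' ?_
    exact natCast_not_mem_nonunits A hℓ hℓA Nat.prime_three (by omega)
  have hS := hstar ↥K' N (trSubring A K') ℓ hGB hω
  have hSm := hsmooth ↥K' N (trSubring A K') ℓ hGB fun n hn hℓn =>
    exists_primitiveRoot_base A ↥K' hroots' hn (natCast_not_mem_nonunits_of_not_dvd A hℓ hℓA hℓn)
  -- units and roots of unity
  have hpA : ((p : ℕ) : Qbar) ∉ A.nonunits := natCast_not_mem_nonunits A hℓ hℓA hp hpℓ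
  obtain ⟨ζ, hζ⟩ := exists_primitiveRoot_trS A ↥K' hroots' hp.pos hpA
  -- descent of the data
  obtain ⟨y₁', h₁, hF₁⟩ := hT₁ ↥K' fun t ht =>
    hrange t (Finset.mem_union_left _ (Finset.mem_union_left _ ht))
  obtain ⟨y₂', h₂, hF₂⟩ := hT₂ ↥K' fun t ht =>
    hrange t (Finset.mem_union_left _ (Finset.mem_union_right _ ht))
  obtain ⟨g₀, hg₀⟩ := hT₃ ↥K' fun t ht => hrange t (Finset.mem_union_right _ ht)
  exact contradiction_at N A ↥K' hbij.2 hS.1.isPrime hS.2.isPrime hSm hp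
    (isUnit_natCast_trS A ↥K' hpA) hζ y₁ y₂ hy₁ hy₂ hk₁ hk₂ gbar hne₁ hne₂ hg0 hordP hnp hordQ
    y₁' y₂' h₁ h₂ hF₁ hF₂ g₀ hg₀

set_option synthInstance.maxHeartbeats 400000 in
/-- **S18 from (∗) and (S)** (the frozen statement). -/
theorem result_of_targets (hstar : StarInput) (hsmooth : SmoothInput)
    (N : ℕ) [NeZero N] {ℓ : ℕ} [Fact ℓ.Prime] (hℓN : ¬ ℓ ∣ N)
    (A : ValuationSubring Qbar) (hA : A.LiesOverPrime ℓ)
    (h : ModularCurve.ReductionInputsModL A N) (m : ℕ) (hm : ¬ ℓ ∣ m) (z : ModularCurve.JZero N)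
    (hmz : m • z = 0) (hz : ModularCurve.reductionModL A N z = 0) : z = 0 := by
  have hz' : reductionPic0Along h.choose h.choose_spec.1 h.choose_spec.2 z = 0 := by
    have := reductionAlong_eq h
    rw [← this]
    exact hz
  exact eq_zero_of_reductionPic0Along_eq_zero hstar hsmooth N hℓN A hA h.choose h.choose_spec.1
    h.choose_spec.2 m hm z hmz hz'

end Fermat.Agent.N4.S18Glue
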