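/-
N4 block d (S18 glue), file 6: extraction of the data from the frozen hypotheses of S18.

From a nonzero class `z` killed by `m` (prime to `ℓ`) and by the reduction map we extract a prime
`p ≠ ℓ`, two integral `q`-expansions `y₁, y₂ ∈ A((q))` (images in `Q̄ · F_N`, reductions in `F̄ ∖ 0`) and
`ḡ ∈ F̄ˣ` such that
* `p ∣ ord_P (y₁ / y₂)` for every place `P` of `Q̄ · F_N`, and `y₁ / y₂` is not a `p`-th power;
* `ord_Q (ȳ₁ / ȳ₂) = p · ord_Q ḡ` for every place `Q` of `F̄`.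
-/
import Mathlib
import Fermat.Prelude.Def_ModularCurve_ReductionModL

set_option autoImplicit false
set_option linter.unusedSectionVars false
set_option linter.style.haveILetI false

open ModularCurve AlgebraicCurve

namespace Fermat.Agent.N4.S18Glue

local notation "Qbar" => AlgebraicClosure ℚ

section Group

variable {G : Type*} [AddCommGroup G]

/-- A nonzero element killed by `m` has a multiple of prime order `p ∣ m`. -/
theorem exists_prime_order {z : G} (hz : z ≠ 0) {m : ℕ} (hm : m ≠ 0) (hmz : m • z = 0) :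
    ∃ (p : ℕ) (c : ℕ), p.Prime ∧ p ∣ m ∧ c • z ≠ 0 ∧ p • (c • z) = 0 := by
  set n := addOrderOf z with hn
  have hnm : n ∣ m := addOrderOf_dvd_of_nsmul_eq_zero hmz
  have hn0 : n ≠ 0 := fun h0 => hm (by rw [h0] at hnm; exact zero_dvd_iff.mp hnm)
  have hn1 : n ≠ 1 := fun h1 => hz (AddMonoid.addOrderOf_eq_one_iff.mp h1)
  have hp : n.minFac.Prime := Nat.minFac_prime hn1
  have hpn : n.minFac ∣ n := Nat.minFac_dvd n
  refine ⟨n.minFac, n / n.minFac, hp, hpn.trans hnm, ?_, ?_⟩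
  · intro h0
    have h1 : n ∣ n / n.minFac := addOrderOf_dvd_of_nsmul_eq_zero h0
    have h2 : 0 < n / n.minFac := Nat.div_pos (Nat.le_of_dvd (Nat.pos_of_ne_zero hn0) hpn) hp.pos
    have h3 : n / n.minFac < n := Nat.div_lt_self (Nat.pos_of_ne_zero hn0) hp.one_lt
    exact absurd (Nat.le_of_dvd h2 h1) (not_le.mpr h3)
  · rw [← mul_nsmul', Nat.mul_div_cancel' hpn]
    exact addOrderOf_nsmul_eq_zero z

end Group

section IPD

variable {L : Type*} [Field L] [Algebra ℚ L] {A : ValuationSubring L}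
variable {k : Type*} [Field k] {π : A →+* k} {N : ℕ}

local notation "FL" => laurentBaseChange L (modularFunctionFieldFull N)

theorem coeffMap_subtype_injective :
    Function.Injective (coeffMap (A.subtype : ↥A →+* L)) := by
  intro a b h
  ext n
  have := congrArg (fun x : LaurentSeries L => x.coeff n) h
  exact this

theorem zero_mem_ipd : (0 : Divisor L FL) ∈ integralPrincipalDivisors A π N := by
  refine ⟨1, ?_, ?_, ?_, ?_⟩
  · rw [map_one]; exact one_mem _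
  · rw [map_one]; exact one_mem _
  · rw [map_one]; exact one_ne_zero
  · intro P
    have h1 : (⟨coeffMap A.subtype 1, by rw [map_one]; exact one_mem _⟩ : FL) = 1 :=
      Subtype.ext (map_one _)
    rw [h1, Place.ord_one]
    rfl

theorem add_mem_ipd {D E : Divisor L FL} (hD : D ∈ integralPrincipalDivisors A π N)
    (hE : E ∈ integralPrincipalDivisors A π N) : D + E ∈ integralPrincipalDivisors A π N := by
  obtain ⟨y, hy, hyk, hne, hDy⟩ := hD
  obtain ⟨y', hy', hyk', hne', hEy⟩ := hE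
  have hy0 : (⟨coeffMap A.subtype y, hy⟩ : FL) ≠ 0 := by
    intro h0
    have h1 : coeffMap A.subtype y = 0 := congrArg Subtype.val h0
    have h2 : y = 0 := coeffMap_subtype_injective (h1.trans (map_zero _).symm)
    exact hne (by rw [h2, map_zero])
  have hy0' : (⟨coeffMap A.subtype y', hy'⟩ : FL) ≠ 0 := by
    intro h0
    have h1 : coeffMap A.subtype y' = 0 := congrArg Subtype.val h0
    have h2 : y' = 0 := coeffMap_subtype_injective (h1.trans (map_zero _).symm)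
    exact hne' (by rw [h2, map_zero])
  refine ⟨y * y', ?_, ?_, ?_, ?_⟩
  · rw [map_mul]; exact mul_mem hy hy'
  · rw [map_mul]; exact mul_mem hyk hyk'
  · rw [map_mul]; exact mul_ne_zero hne hne'
  · intro P
    have h1 : (⟨coeffMap A.subtype (y * y'), by rw [map_mul]; exact mul_mem hy hy'⟩ : FL) =
        ⟨coeffMap A.subtype y, hy⟩ * ⟨coeffMap A.subtype y', hy'⟩ := Subtype.ext (map_mul _ _ _)
    rw [h1, P.ord_mul hy0 hy0', Finsupp.add_apply, hDy P, hEy P]

/-- Every element of the closure of the integral principal divisors is a difference of two of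
them. -/
theorem exists_sub_of_mem_closure {E : Divisor L FL}
    (hE : E ∈ AddSubgroup.closure (integralPrincipalDivisors A π N)) :
    ∃ E₁ ∈ integralPrincipalDivisors A π N, ∃ E₂ ∈ integralPrincipalDivisors A π N,
      E = E₁ - E₂ := by
  induction hE using AddSubgroup.closure_induction with
  | mem E hE => exact ⟨E, hE, 0, zero_mem_ipd, (sub_zero E).symm⟩
  | zero => exact ⟨0, zero_mem_ipd, 0, zero_mem_ipd, (sub_zero _).symm⟩
  | add E E' _ _ hE hE' =>
    obtain ⟨E₁, h₁, E₂, h₂, rfl⟩ := hE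
    obtain ⟨E₁', h₁', E₂', h₂', rfl⟩ := hE'
    exact ⟨E₁ + E₁', add_mem_ipd h₁ h₁', E₂ + E₂', add_mem_ipd h₂ h₂', by abel⟩
  | neg E _ hE =>
    obtain ⟨E₁, h₁, E₂, h₂, rfl⟩ := hE
    exact ⟨E₂, h₂, E₁, h₁, by abel⟩

end IPD

section Extract

set_option synthInstance.maxHeartbeats 400000

variable {N : ℕ} [NeZero N] {A : ValuationSubring Qbar}

set_option quotPrecheck false in
local notation "kA" => IsLocalRing.ResidueField ↥A
set_option quotPrecheck false in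
local notation "Fb" => modularFunctionFieldBar N
set_option quotPrecheck false in
local notation "Fk" => modularFunctionFieldFullC (IsLocalRing.ResidueField ↥A) N

/-- **Extraction of the data** from the hypotheses of S18, for an arbitrary place map `r` satisfying
the specification. -/
theorem exists_data_along {ℓ : ℕ}
    (r : Place Qbar ↥Fb → Place kA ↥Fk) (hrspec : IsPlaceReductionModL A N r)
    (hgen : PrincipalGeneratedByIntegral A (IsLocalRing.residue ↥A) N)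
    {m : ℕ} (hm : ¬ ℓ ∣ m) {z : JZero N}
    (hmz : m • z = 0) (hz : reductionPic0Along r hrspec hgen z = 0) (hz0 : z ≠ 0) :
    ∃ p : ℕ, p.Prime ∧ p ≠ ℓ ∧
      ∃ (y₁ y₂ : LaurentSeries ↥A) (hy₁ : coeffMap A.subtype y₁ ∈ Fb)
        (hy₂ : coeffMap A.subtype y₂ ∈ Fb)
        (hk₁ : coeffMap (IsLocalRing.residue ↥A) y₁ ∈ Fk)
        (hk₂ : coeffMap (IsLocalRing.residue ↥A) y₂ ∈ Fk) (gbar : ↥Fk),
        coeffMap (IsLocalRing.residue ↥A) y₁ ≠ 0 ∧ coeffMap (IsLocalRing.residue ↥A) y₂ ≠ 0 ∧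
        gbar ≠ 0 ∧
        (∀ P : Place Qbar ↥Fb, (p : ℤ) ∣
          P.ord (⟨_, hy₁⟩ : ↥Fb) - P.ord (⟨_, hy₂⟩ : ↥Fb)) ∧
        (∀ w : ↥Fb, (⟨_, hy₁⟩ : ↥Fb) ≠ w ^ p * ⟨_, hy₂⟩) ∧
        (∀ Q : Place kA ↥Fk,
          Q.ord (⟨_, hk₁⟩ : ↥Fk) - Q.ord (⟨_, hk₂⟩ : ↥Fk) = p * Q.ord gbar) := by
  have hm0 : m ≠ 0 := fun h0 => hm (h0 ▸ dvd_zero ℓ)
  obtain ⟨p, c, hp, hpm, hcz, hpcz⟩ := exists_prime_order hz0 hm0 hmz
  have hpℓ : p ≠ ℓ := fun h0 => hm (h0 ▸ hpm)
  have hred : reductionPic0Along r hrspec hgen (c • z) = 0 := by rw [map_nsmul, hz, smul_zero]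
  obtain ⟨D, hD⟩ := Pic0.mk_surjective (c • z)
  rw [← hD] at hcz hpcz hred
  -- `p • D` is principal
  have hpD : p • (D : Divisor Qbar ↥Fb) ∈ Divisor.principal (K := Qbar) (F := ↥Fb) := by
    have h1 : (Pic0.mk (p • D) : JZero N) = 0 := hpcz
    have h2 := (QuotientAddGroup.eq_zero_iff (p • D)).mp h1
    rw [AddSubgroup.mem_addSubgroupOf] at h2
    simpa using h2
  -- `D` is not principal
  have hDnp : (D : Divisor Qbar ↥Fb) ∉ Divisor.principal (K := Qbar) (F := ↥Fb) := by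
    intro h1
    apply hcz
    exact (QuotientAddGroup.eq_zero_iff D).mpr (AddSubgroup.mem_addSubgroupOf.mpr h1)
  -- the reduction of `D` is principal
  have hrD : Finsupp.mapDomain r (D : Divisor Qbar ↥Fb) ∈
      Divisor.principal (K := kA) (F := ↥Fk) := by
    rw [reductionPic0Along_mk r hrspec hgen D] at hred
    have h2 := (QuotientAddGroup.eq_zero_iff _).mp hred
    rw [AddSubgroup.mem_addSubgroupOf] at h2
    exact h2
  obtain ⟨gbar, hg0, hgD⟩ := hrD
  -- decompose `p • D`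
  obtain ⟨E₁, ⟨y₁, hy₁, hk₁, hne₁, hE₁⟩, E₂, ⟨y₂, hy₂, hk₂, hne₂, hE₂⟩, hE⟩ :=
    exists_sub_of_mem_closure (hgen hpD)
  have hordP : ∀ P : Place Qbar ↥Fb, (p : ℤ) * (D : Divisor Qbar ↥Fb) P =
      P.ord (⟨_, hy₁⟩ : ↥Fb) - P.ord (⟨_, hy₂⟩ : ↥Fb) := by
    intro P
    have h1 := DFunLike.congr_fun hE P
    rw [Finsupp.sub_apply, hE₁ P, hE₂ P, Finsupp.smul_apply, nsmul_eq_mul] at h1
    exact h1
  have hordQ : ∀ Q : Place kA ↥Fk,
      Q.ord (⟨_, hk₁⟩ : ↥Fk) - Q.ord (⟨_, hk₂⟩ : ↥Fk) = p * Q.ord gbar := by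
    intro Q
    have h1 := hrspec.2 y₁ hy₁ hk₁ hne₁ E₁ hE₁ Q
    have h2 := hrspec.2 y₂ hy₂ hk₂ hne₂ E₂ hE₂ Q
    have h3 : Finsupp.mapDomain r (p • (D : Divisor Qbar ↥Fb)) =
        Finsupp.mapDomain r E₁ - Finsupp.mapDomain r E₂ := by
      rw [hE, Finsupp.mapDomain_sub]
    have h4 := DFunLike.congr_fun h3 Q
    rw [Finsupp.sub_apply, h1, h2, Finsupp.mapDomain_smul, Finsupp.smul_apply, nsmul_eq_mul,
      hgD Q] at h4
    exact h4.symm
  have hy₁0 : (⟨_, hy₁⟩ : ↥Fb) ≠ 0 := by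
    intro h0
    have h1 : coeffMap A.subtype y₁ = 0 := congrArg Subtype.val h0
    have h2 : y₁ = 0 := coeffMap_subtype_injective (h1.trans (map_zero _).symm)
    exact hne₁ (by rw [h2, map_zero])
  have hy₂0 : (⟨_, hy₂⟩ : ↥Fb) ≠ 0 := by
    intro h0
    have h1 : coeffMap A.subtype y₂ = 0 := congrArg Subtype.val h0
    have h2 : y₂ = 0 := coeffMap_subtype_injective (h1.trans (map_zero _).symm)
    exact hne₂ (by rw [h2, map_zero])
  refine ⟨p, hp, hpℓ, y₁, y₂, hy₁, hy₂, hk₁, hk₂, gbar, hne₁, hne₂, hg0,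
    fun P => ⟨_, (hordP P).symm⟩, ?_, hordQ⟩
  intro w hw
  apply hDnp
  have hw0 : w ≠ 0 := by
    rintro rfl
    rw [zero_pow hp.ne_zero, zero_mul] at hw
    exact hy₁0 hw
  refine ⟨w, hw0, fun P => ?_⟩
  have h1 := hordP P
  rw [hw, P.ord_mul (pow_ne_zero _ hw0) hy₂0, add_sub_cancel_right, ← zpow_natCast,
    P.ord_zpow] at h1
  exact mul_left_cancel₀ (Nat.cast_ne_zero.mpr hp.ne_zero) h1

/-- **Extraction of the data** from the hypotheses of S18 (frozen form). -/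
theorem exists_data {ℓ : ℕ} (h : ReductionInputsModL A N) {m : ℕ} (hm : ¬ ℓ ∣ m) {z : JZero N}
    (hmz : m • z = 0) (hz : reductionModL A N z = 0) (hz0 : z ≠ 0) :
    ∃ p : ℕ, p.Prime ∧ p ≠ ℓ ∧
      ∃ (y₁ y₂ : LaurentSeries ↥A) (hy₁ : coeffMap A.subtype y₁ ∈ Fb)
        (hy₂ : coeffMap A.subtype y₂ ∈ Fb)
        (hk₁ : coeffMap (IsLocalRing.residue ↥A) y₁ ∈ Fk)
        (hk₂ : coeffMap (IsLocalRing.residue ↥A) y₂ ∈ Fk) (gbar : ↥Fk),
        coeffMap (IsLocalRing.residue ↥A) y₁ ≠ 0 ∧ coeffMap (IsLocalRing.residue ↥A) y₂ ≠ 0 ∧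
        gbar ≠ 0 ∧
        (∀ P : Place Qbar ↥Fb, (p : ℤ) ∣
          P.ord (⟨_, hy₁⟩ : ↥Fb) - P.ord (⟨_, hy₂⟩ : ↥Fb)) ∧
        (∀ w : ↥Fb, (⟨_, hy₁⟩ : ↥Fb) ≠ w ^ p * ⟨_, hy₂⟩) ∧
        (∀ Q : Place kA ↥Fk,
          Q.ord (⟨_, hk₁⟩ : ↥Fk) - Q.ord (⟨_, hk₂⟩ : ↥Fk) = p * Q.ord gbar) := by
  have hz' : reductionPic0Along h.choose h.choose_spec.1 h.choose_spec.2 z = 0 := by
    have := reductionAlong_eq h
    rw [← this]
    exact hz
  exact exists_data_along h.choose h.choose_spec.1 h.choose_spec.2 hm hmz hz' hz0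

end Extract

end Fermat.Agent.N4.S18Glue
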