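/-
N4 block d (S18 glue), file 7: descent of finitely many functions to a small base.

`A ⊆ Q̄` a valuation ring with residue field `k`.  For a field `K` with `[Algebra K Q̄]` put
`trS A K = A ∩ K` (a subring of `K`).

* `exists_descent_bar` : every element of `Q̄(j(q^d) : d ∣ N)` comes from `FF K N` as soon as `K` contains
  a certain finite subset of `Q̄`;
* `exists_descent_series` : an integral `q`-expansion `y ∈ A((q))` whose image lies in `Q̄ · F_N` has all
  its coefficients in `A ∩ K`, for such `K`;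
* `exists_lift_residue` : every element of `k(j̄(q^d) : d ∣ N)` is the reduction of an element of the Gauss
  ring of `FF K N` (relative to `A ∩ K`, when it is a discrete valuation ring), for such `K`.
-/
import Fermat.Agent.N4.S18Glue.Base
import Fermat.Agent.N4.BigDVR
import Fermat.Agent.N4.S18Glue.Data

set_option autoImplicit false
set_option linter.unusedSectionVars false
set_option linter.style.haveILetI false

open ModularCurve Polynomial AlgebraicCurve IntermediateField

namespace Fermat.Agent.N4.S18Glue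

open Fermat.Agent.N4.Setting Fermat.Agent.N4.Chart Fermat.Agent.N4.FibreEmbedding
  Fermat.Agent.S28.Gauss Fermat.Agent.N4.BigDVR

local notation "Qbar" => AlgebraicClosure ℚ

section TrS

variable (A : ValuationSubring Qbar) (K : Type) [Field K] [Algebra K Qbar]

/-- `A ∩ K` as a subring of `K`. -/
noncomputable abbrev trS : Subring K := (tr A K).toSubring

instance isLocalRing_trS : IsLocalRing ↥(trS A K) :=
  inferInstanceAs (IsLocalRing ↥(tr A K))

instance isFractionRing_trS : IsFractionRing ↥(trS A K) K :=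
  inferInstanceAs (IsFractionRing ↥(tr A K) K)

/-- `A ∩ K → A`. -/
noncomputable def inclA : ↥(trS A K) →+* ↥A := trIncl A K

@[simp] theorem coe_inclA (a : ↥(trS A K)) : ((inclA A K a : ↥A) : Qbar) = algebraMap K Qbar (a : K) :=
  rfl

theorem subtype_comp_inclA :
    (A.subtype : ↥A →+* Qbar).comp (inclA A K) = (algebraMap K Qbar).comp (trS A K).subtype :=
  RingHom.ext fun _ => rfl

instance isLocalHom_inclA : IsLocalHom (inclA A K) := isLocalHom_trIncl A K

/-- The map of residue fields `κ(A ∩ K) → κ(A)`. -/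
noncomputable def ebar : IsLocalRing.ResidueField ↥(trS A K) →+* IsLocalRing.ResidueField ↥A :=
  IsLocalRing.ResidueField.map (inclA A K)

theorem ebar_residue (a : ↥(trS A K)) :
    ebar A K (IsLocalRing.residue ↥(trS A K) a) = IsLocalRing.residue ↥A (inclA A K a) :=
  IsLocalRing.ResidueField.map_residue _ _

theorem ebar_comp_residue :
    (ebar A K).comp (IsLocalRing.residue ↥(trS A K)) =
      (IsLocalRing.residue ↥A).comp (inclA A K) :=
  RingHom.ext fun a => ebar_residue A K a

theorem coeffMap_ebar_red (y : LaurentSeries ↥(trS A K)) :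
    coeffMap (ebar A K) (coeffMap (IsLocalRing.residue ↥(trS A K)) y) =
      coeffMap (IsLocalRing.residue ↥A) (coeffMap (inclA A K) y) := by
  rw [coeffMap_coeffMap, coeffMap_coeffMap, ebar_comp_residue]

theorem coeffMap_subtype_inclA (y : LaurentSeries ↥(trS A K)) :
    coeffMap (A.subtype : ↥A →+* Qbar) (coeffMap (inclA A K) y) =
      coeffMap (algebraMap K Qbar) (coeffMap (trS A K).subtype y) := by
  rw [coeffMap_coeffMap, coeffMap_coeffMap, subtype_comp_inclA]

theorem coeffMap_ebar_injective : Function.Injective (coeffMap (ebar A K)) := by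
  intro a b h
  ext n
  have := congrArg (fun x : LaurentSeries _ => x.coeff n) h
  exact (ebar A K).injective this

end TrS

section DescendBar

variable (N : ℕ)

/-- Every element of `Q̄(j(q^d) : d ∣ N)` is defined over every field containing a suitable finite
subset of `Q̄`. -/
theorem exists_descent_full {x : LaurentSeries Qbar} (hx : x ∈ modularFunctionFieldFullC Qbar N) :
    ∃ T : Finset Qbar, ∀ (K : Type) [Field K] [Algebra K Qbar],
      (∀ t ∈ T, t ∈ (algebraMap K Qbar).range) →
        ∃ x' ∈ modularFunctionFieldFullC K N, coeffMap (algebraMap K Qbar) x' = x := by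
  classical
  rw [modularFunctionFieldFullC] at hx
  induction hx using IntermediateField.adjoin_induction with
  | mem y hy =>
    obtain ⟨d, hd, hdN, rfl⟩ := hy
    haveI := hd
    refine ⟨∅, fun K _ _ _ => ⟨qExpand K d (jqModC K), jqModCd_mem_full K N hdN, ?_⟩⟩
    rw [coeffMap_qExpand, coeffMap_jqModC]
  | algebraMap c =>
    refine ⟨{c}, fun K _ _ hT => ?_⟩
    obtain ⟨c', rfl⟩ := hT c (Finset.mem_singleton_self c)
    refine ⟨algebraMap K (LaurentSeries K) c', IntermediateField.algebraMap_mem _ _, ?_⟩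
    rw [algebraMap_laurentSeries_eq_single, algebraMap_laurentSeries_eq_single, coeffMap_single]
  | add x y _ _ hx hy =>
    obtain ⟨T₁, h₁⟩ := hx
    obtain ⟨T₂, h₂⟩ := hy
    refine ⟨T₁ ∪ T₂, fun K _ _ hT => ?_⟩
    obtain ⟨x', hx', rfl⟩ := h₁ K fun t ht => hT t (Finset.mem_union_left _ ht)
    obtain ⟨y', hy', rfl⟩ := h₂ K fun t ht => hT t (Finset.mem_union_right _ ht)
    exact ⟨x' + y', add_mem hx' hy', map_add _ _ _⟩
  | inv x _ hx =>
    obtain ⟨T₁, h₁⟩ := hx
    refine ⟨T₁, fun K _ _ hT => ?_⟩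
    obtain ⟨x', hx', rfl⟩ := h₁ K hT
    exact ⟨x'⁻¹, inv_mem hx', map_inv₀ _ _⟩
  | mul x y _ _ hx hy =>
    obtain ⟨T₁, h₁⟩ := hx
    obtain ⟨T₂, h₂⟩ := hy
    refine ⟨T₁ ∪ T₂, fun K _ _ hT => ?_⟩
    obtain ⟨x', hx', rfl⟩ := h₁ K fun t ht => hT t (Finset.mem_union_left _ ht)
    obtain ⟨y', hy', rfl⟩ := h₂ K fun t ht => hT t (Finset.mem_union_right _ ht)
    exact ⟨x' * y', mul_mem hx' hy', map_mul _ _ _⟩

variable (A : ValuationSubring Qbar)

/-- An integral `q`-expansion whose image lies in `Q̄ · F_N` descends to `A ∩ K` for every field `K`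
containing a suitable finite subset of `Q̄`. -/
theorem exists_descent_series (y : LaurentSeries ↥A)
    (hy : coeffMap A.subtype y ∈ modularFunctionFieldBar N) :
    ∃ T : Finset Qbar, ∀ (K : Type) [Field K] [Algebra K Qbar],
      (∀ t ∈ T, t ∈ (algebraMap K Qbar).range) →
        ∃ y' : LaurentSeries ↥(trS A K), coeffMap (inclA A K) y' = y ∧
          coeffMap (trS A K).subtype y' ∈ modularFunctionFieldFullC K N := by
  rw [bar_eq] at hy
  obtain ⟨T, hT⟩ := exists_descent_full N hy
  refine ⟨T, fun K _ _ hK => ?_⟩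
  obtain ⟨x', hx', hxy⟩ := hT K hK
  have hcoeff : ∀ n, x'.coeff n ∈ (trS A K).subtype.range := by
    intro n
    have h1 : algebraMap K Qbar (x'.coeff n) = ((y.coeff n : ↥A) : Qbar) := by
      have := congrArg (fun z : LaurentSeries Qbar => z.coeff n) hxy
      exact this
    have h2 : x'.coeff n ∈ tr A K := by
      rw [mem_tr_iff, h1]
      exact (y.coeff n).2
    exact ⟨⟨x'.coeff n, h2⟩, rfl⟩
  obtain ⟨y', hy'⟩ := exists_coeffMap_eq (trS A K).subtype Subtype.val_injective x' hcoeff
  refine ⟨y', ?_, by rw [hy']; exact hx'⟩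
  apply coeffMap_subtype_injective (A := A)
  rw [coeffMap_subtype_inclA, hy', hxy]

end DescendBar

section LiftResidue

variable (N : ℕ) (A : ValuationSubring Qbar)

/-- The reduction (to `κ(A)`) of an element of the Gauss ring of `FF K N`. -/
noncomputable def thetaA (K : Type) [Field K] [Algebra K Qbar]
    [IsDiscreteValuationRing ↥(trS A K)] :
    gaussSubalgebra K N (trS A K) →+* LaurentSeries (IsLocalRing.ResidueField ↥A) :=
  (coeffMap (ebar A K)).comp (theta K N (trS A K))

theorem thetaA_apply (K : Type) [Field K] [Algebra K Qbar]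
    [IsDiscreteValuationRing ↥(trS A K)] (g : gaussSubalgebra K N (trS A K)) :
    thetaA N A K g = coeffMap (ebar A K) (theta K N (trS A K) g) := rfl

/-- The reduction of the image of an integral series. -/
theorem thetaA_of_emb (K : Type) [Field K] [Algebra K Qbar]
    [IsDiscreteValuationRing ↥(trS A K)] (g : gaussSubalgebra K N (trS A K))
    (y : LaurentSeries ↥(trS A K))
    (h : ((g : FF K N) : LaurentSeries K) = coeffMap (trS A K).subtype y) :
    thetaA N A K g = coeffMap (IsLocalRing.residue ↥A) (coeffMap (inclA A K) y) := by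
  rw [thetaA_apply, theta_of_emb K N (trS A K) g y h, red_eq, coeffMap_ebar_red]

/-- Every element of `k(j̄(q^d) : d ∣ N)`, `k = κ(A)`, is the reduction of an element of the Gauss ring of
`FF K N` for every field `K` containing a suitable finite subset of `Q̄` (with `A ∩ K` a discrete
valuation ring). -/
theorem exists_lift_residue {x : LaurentSeries (IsLocalRing.ResidueField ↥A)}
    (hx : x ∈ modularFunctionFieldFullC (IsLocalRing.ResidueField ↥A) N) :
    ∃ T : Finset Qbar, ∀ (K : Type) [Field K] [Algebra K Qbar]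
      [IsDiscreteValuationRing ↥(trS A K)], (∀ t ∈ T, t ∈ (algebraMap K Qbar).range) →
        ∃ g : gaussSubalgebra K N (trS A K), thetaA N A K g = x := by
  classical
  rw [modularFunctionFieldFullC] at hx
  induction hx using IntermediateField.adjoin_induction with
  | mem y hy =>
    obtain ⟨d, hd, hdN, rfl⟩ := hy
    haveI := hd
    refine ⟨∅, fun K _ _ _ _ => ?_⟩
    have hmem : jdF K N hdN ∈ gaussSubalgebra K N (trS A K) := by
      rw [mem_gaussSubalgebra_iff, coe_jdF, ← emb_jd K (trS A K) d]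
      exact emb_mem_gaussRing _
    refine ⟨⟨jdF K N hdN, hmem⟩, ?_⟩
    rw [thetaA_of_emb N A K _ (qExpand ↥(trS A K) d (jqModC ↥(trS A K)))
      (by rw [← emb_eq, emb_jd]; rfl)]
    rw [coeffMap_qExpand, coeffMap_jqModC, coeffMap_qExpand, coeffMap_jqModC]
  | algebraMap c =>
    obtain ⟨c₀, rfl⟩ := IsLocalRing.residue_surjective c
    refine ⟨{(c₀ : Qbar)}, fun K _ _ _ hT => ?_⟩
    obtain ⟨c', hc'⟩ := hT (c₀ : Qbar) (Finset.mem_singleton_self _)
    have hmem : c' ∈ tr A K := by
      rw [mem_tr_iff, hc']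
      exact c₀.2
    refine ⟨algebraMap ↥(trS A K) (gaussSubalgebra K N (trS A K)) ⟨c', hmem⟩, ?_⟩
    rw [thetaA_apply, theta_algebraMap, algebraMap_laurentSeries_eq_single]
    have h1 : ebar A K (IsLocalRing.residue ↥(trS A K) ⟨c', hmem⟩) = IsLocalRing.residue ↥A c₀ := by
      rw [ebar_residue]
      congr 1
      exact Subtype.ext hc'
    rw [← h1]
    exact coeffMap_single _ _ _
  | add x y _ _ hx hy =>
    obtain ⟨T₁, h₁⟩ := hx
    obtain ⟨T₂, h₂⟩ := hy
    refine ⟨T₁ ∪ T₂, fun K _ _ _ hT => ?_⟩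
    obtain ⟨g₁, rfl⟩ := h₁ K fun t ht => hT t (Finset.mem_union_left _ ht)
    obtain ⟨g₂, rfl⟩ := h₂ K fun t ht => hT t (Finset.mem_union_right _ ht)
    exact ⟨g₁ + g₂, map_add _ _ _⟩
  | inv x _ hx =>
    obtain ⟨T₁, h₁⟩ := hx
    refine ⟨T₁, fun K _ _ _ hT => ?_⟩
    obtain ⟨g₁, rfl⟩ := h₁ K hT
    by_cases h0 : thetaA N A K g₁ = 0
    · exact ⟨0, by rw [h0, inv_zero, map_zero]⟩
    · have hθ : theta K N (trS A K) g₁ ≠ 0 := by
        intro h
        apply h0
        rw [thetaA_apply, h, map_zero]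
      refine ⟨⟨_, inv_mem_gaussSubalgebra K N (trS A K) g₁ hθ⟩, ?_⟩
      have hg0 : (g₁ : FF K N) ≠ 0 := coe_ne_zero_of_theta_ne_zero K N (trS A K) g₁ hθ
      have hmul : g₁ * ⟨_, inv_mem_gaussSubalgebra K N (trS A K) g₁ hθ⟩ = 1 :=
        Subtype.ext (mul_inv_cancel₀ hg0)
      have h2 := congrArg (thetaA N A K) hmul
      rw [map_mul, map_one] at h2
      exact eq_inv_of_mul_eq_one_right h2
  | mul x y _ _ hx hy =>
    obtain ⟨T₁, h₁⟩ := hx
    obtain ⟨T₂, h₂⟩ := hy
    refine ⟨T₁ ∪ T₂, fun K _ _ _ hT => ?_⟩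
    obtain ⟨g₁, rfl⟩ := h₁ K fun t ht => hT t (Finset.mem_union_left _ ht)
    obtain ⟨g₂, rfl⟩ := h₂ K fun t ht => hT t (Finset.mem_union_right _ ht)
    exact ⟨g₁ * g₂, map_mul _ _ _⟩

end LiftResidue

end Fermat.Agent.N4.S18Glue
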