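/-
N4 block d (S18 glue), file 8: functions on the special fibre without zeros or poles are constant.

`A ⊆ Q̄` a valuation ring with (algebraically closed) residue field `k`, `K` a field with `[Algebra K Q̄]`
such that `O = A ∩ K` is a discrete valuation ring with `κ(O) → k` surjective, the two charts of
`FF K N` over `O` with prime and Dedekind special fibres.  The special fibres of the two charts, reduced
to `k((q))`, are Dedekind `k`-subalgebras `B₊ ∋ j̄`, `B₋ ∋ j̄⁻¹` of `k((q))` whose fraction fields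
contain `F̄ = k(j̄(q^d) : d ∣ N)`; by block dSF every `c ∈ F̄ˣ` of order `0` at all places of `F̄ / k` is a
constant.
-/
import Fermat.Agent.N4.S18Glue.Descend
import Fermat.Agent.N4.SpecialFibreConst

set_option autoImplicit false
set_option linter.unusedSectionVars false
set_option linter.style.haveILetI false

open ModularCurve Polynomial AlgebraicCurve IntermediateField

namespace Fermat.Agent.N4.S18Glue

open Fermat.Agent.N4.Setting Fermat.Agent.N4.Chart Fermat.Agent.N4.FibreEmbedding
  Fermat.Agent.S28.Gauss Fermat.Agent.N4.BigDVR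

local notation "Qbar" => AlgebraicClosure ℚ

section Generic

/-- Dedekind domains are preserved by ring isomorphisms. -/
theorem isDedekindDomain_of_ringEquiv {R S : Type*} [CommRing R] [CommRing S]
    [IsDedekindDomain R] (e : R ≃+* S) : IsDedekindDomain S := by
  haveI : IsDomain S := e.symm.toMulEquiv.isDomain
  haveI : IsNoetherianRing S := isNoetherianRing_of_ringEquiv R e
  haveI : Ring.DimensionLEOne S := Ring.DimensionLEOne.of_ringEquiv e.symm
  haveI : IsIntegrallyClosed S := IsIntegrallyClosed.of_equiv e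
  exact { }

/-- Coefficientwise base change commutes with polynomial evaluation. -/
theorem coeffMap_aeval {κ k : Type*} [Field κ] [Field k] (f : κ →+* k) (σ : LaurentSeries κ)
    (q : κ[X]) : coeffMap f (aeval σ q) = aeval (coeffMap f σ) (q.map f) := by
  rw [aeval_def, hom_eval₂, aeval_def, eval₂_map]
  congr 1
  ext c : 1
  simp only [RingHom.comp_apply]
  rw [algebraMap_laurentSeries_eq_single, algebraMap_laurentSeries_eq_single, coeffMap_single]

/-- The elements of a field which are fractions of elements of a subring. -/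
theorem frac_closure {E : Type*} [Field E] (B : Subring E) :
    ∃ S : Subfield E, ∀ x, x ∈ S ↔ ∃ a ∈ B, ∃ b ∈ B, b ≠ 0 ∧ x * b = a := by
  refine ⟨{ carrier := {x | ∃ a ∈ B, ∃ b ∈ B, b ≠ 0 ∧ x * b = a}
            mul_mem' := ?_, one_mem' := ?_, add_mem' := ?_, zero_mem' := ?_, neg_mem' := ?_,
            inv_mem' := ?_ }, fun x => Iff.rfl⟩
  · rintro x y ⟨a, ha, b, hb, hb0, hx⟩ ⟨c, hc, d, hd, hd0, hy⟩
    exact ⟨a * c, mul_mem ha hc, b * d, mul_mem hb hd, mul_ne_zero hb0 hd0, by
      rw [← hx, ← hy]; ring⟩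
  · exact ⟨1, one_mem _, 1, one_mem _, one_ne_zero, mul_one _⟩
  · rintro x y ⟨a, ha, b, hb, hb0, hx⟩ ⟨c, hc, d, hd, hd0, hy⟩
    exact ⟨a * d + c * b, add_mem (mul_mem ha hd) (mul_mem hc hb), b * d, mul_mem hb hd,
      mul_ne_zero hb0 hd0, by rw [← hx, ← hy]; ring⟩
  · exact ⟨0, zero_mem _, 1, one_mem _, one_ne_zero, zero_mul _⟩
  · rintro x ⟨a, ha, b, hb, hb0, hx⟩
    exact ⟨-a, neg_mem ha, b, hb, hb0, by rw [← hx]; ring⟩
  · rintro x ⟨a, ha, b, hb, hb0, hx⟩
    by_cases hx0 : x = 0
    · exact ⟨0, zero_mem _, 1, one_mem _, one_ne_zero, by rw [hx0, inv_zero, zero_mul]⟩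
    · have ha0 : a ≠ 0 := by rw [← hx]; exact mul_ne_zero hx0 hb0
      exact ⟨b, hb, a, ha, ha0, by rw [← hx]; field_simp⟩

end Generic

section Chart

variable (N : ℕ) (A : ValuationSubring Qbar) (K : Type) [Field K] [Algebra K Qbar]
  [IsDiscreteValuationRing ↥(trS A K)]

set_option quotPrecheck false in
local notation "kA" => IsLocalRing.ResidueField ↥A

variable {s : FF K N} (hs : s ∈ gaussSubalgebra K N (trS A K))

/-- The reduction map of a chart, with values in `k((q))`. -/
noncomputable def ThetaR : chartAlg ↥(trS A K) (FF K N) {s} →+* LaurentSeries kA :=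
  (thetaA N A K).comp (inclG K N (trS A K) hs)

theorem ThetaR_apply (x : chartAlg ↥(trS A K) (FF K N) {s}) :
    ThetaR N A K hs x = coeffMap (ebar A K) (theta K N (trS A K) (inclG K N (trS A K) hs x)) := rfl

theorem ThetaR_eq_zero_iff (x : chartAlg ↥(trS A K) (FF K N) {s}) :
    ThetaR N A K hs x = 0 ↔ theta K N (trS A K) (inclG K N (trS A K) hs x) = 0 := by
  rw [ThetaR_apply]
  exact map_eq_zero_iff _ (coeffMap_ebar_injective A K)

theorem ThetaR_algebraMap (a : ↥(trS A K)) :
    ThetaR N A K hs (algebraMap ↥(trS A K) (chartAlg ↥(trS A K) (FF K N) {s}) a) =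
      algebraMap kA (LaurentSeries kA) (ebar A K (IsLocalRing.residue ↥(trS A K) a)) := by
  rw [ThetaR_apply, inclG_algebraMap, theta_algebraMap, algebraMap_laurentSeries_eq_single]
  exact coeffMap_single _ _ _

theorem ker_ThetaR
    (htr : Transcendental (IsLocalRing.ResidueField ↥(trS A K)) (theta K N (trS A K) ⟨s, hs⟩))
    (hprime : (fibreIdeal K N (trS A K) (chartAlg ↥(trS A K) (FF K N) {s})).IsPrime)
    {ϖ : ↥(trS A K)} (hϖ : Irreducible ϖ) :
    RingHom.ker (ThetaR N A K hs) =
      Ideal.span {algebraMap ↥(trS A K) (chartAlg ↥(trS A K) (FF K N) {s}) ϖ} := by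
  ext x
  rw [RingHom.mem_ker, ThetaR_eq_zero_iff, Ideal.mem_span_singleton]
  constructor
  · exact dvd_of_theta_eq_zero K N (trS A K) hs htr hprime hϖ x
  · intro h
    by_contra h0
    exact not_dvd_of_theta_ne_zero K N (trS A K) hs hϖ x h0 h

/-- The special fibre of a chart as a `k`-subalgebra of `k((q))`. -/
noncomputable def fibreAlg (hsurj : Function.Surjective (ebar A K)) :
    Subalgebra kA (LaurentSeries kA) :=
  { (ThetaR N A K hs).range.toSubsemiring with
    algebraMap_mem' := fun c => by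
      obtain ⟨c', rfl⟩ := hsurj c
      obtain ⟨a, rfl⟩ := IsLocalRing.residue_surjective c'
      exact ⟨algebraMap ↥(trS A K) _ a, ThetaR_algebraMap N A K hs a⟩ }

theorem mem_fibreAlg_iff (hsurj : Function.Surjective (ebar A K)) {x : LaurentSeries kA} :
    x ∈ fibreAlg N A K hs hsurj ↔ ∃ r, ThetaR N A K hs r = x := Iff.rfl

/-- The special fibre of the chart is isomorphic to its image in `k((q))`. -/
noncomputable def fibreAlgEquiv (hsurj : Function.Surjective (ebar A K)) :
    ↥(ThetaR N A K hs).range ≃+* ↥(fibreAlg N A K hs hsurj) where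
  toFun x := ⟨x.1, x.2⟩
  invFun x := ⟨x.1, x.2⟩
  left_inv _ := rfl
  right_inv _ := rfl
  map_mul' _ _ := rfl
  map_add' _ _ := rfl

theorem isDedekindDomain_fibreAlg (hsurj : Function.Surjective (ebar A K))
    (htr : Transcendental (IsLocalRing.ResidueField ↥(trS A K)) (theta K N (trS A K) ⟨s, hs⟩))
    (hprime : (fibreIdeal K N (trS A K) (chartAlg ↥(trS A K) (FF K N) {s})).IsPrime)
    (hD : IsDedekindDomain (chartAlg ↥(trS A K) (FF K N) {s} ⧸
      fibreIdeal K N (trS A K) (chartAlg ↥(trS A K) (FF K N) {s}))) :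
    IsDedekindDomain ↥(fibreAlg N A K hs hsurj) := by
  obtain ⟨ϖ, hϖ⟩ := IsDiscreteValuationRing.exists_irreducible ↥(trS A K)
  rw [fibreIdeal_eq_span K N (trS A K) hϖ, ← ker_ThetaR N A K hs htr hprime hϖ] at hD
  haveI := hD
  exact isDedekindDomain_of_ringEquiv
    (R := chartAlg ↥(trS A K) (FF K N) {s} ⧸ RingHom.ker (ThetaR N A K hs))
    ((RingHom.quotientKerEquivRange (ThetaR N A K hs)).trans (fibreAlgEquiv N A K hs hsurj))

/-- The generator of the chart. -/
theorem ThetaR_chartGen :
    ThetaR N A K hs (chartGen (Set.mem_singleton s)) = thetaA N A K ⟨s, hs⟩ := rfl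

/-- The reduction of an element of the chart is integral over `k[s̄]`. -/
theorem isIntegral_ThetaR (v : chartAlg ↥(trS A K) (FF K N) {s}) :
    IsIntegral (Algebra.adjoin kA ({thetaA N A K ⟨s, hs⟩} : Set (LaurentSeries kA)))
      (ThetaR N A K hs v) := by
  set σ : LaurentSeries kA := thetaA N A K ⟨s, hs⟩ with hσ
  have h0 := (Fermat.Agent.N4.IntClosure.mem_chartAlg_singleton_iff (O := ↥(trS A K)) s).mp v.2
  let aG : (↥(trS A K))[X] →+* ↥(gaussSubalgebra K N (trS A K)) :=
    ((aeval (⟨s, hs⟩ : gaussSubalgebra K N (trS A K)) :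
      (↥(trS A K))[X] →ₐ[↥(trS A K)] ↥(gaussSubalgebra K N (trS A K))) : _ →+* _)
  have hcomp : (SubringClass.subtype (gaussSubalgebra K N (trS A K))).comp aG =
      ((aeval s : (↥(trS A K))[X] →ₐ[↥(trS A K)] FF K N) : _ →+* _) :=
    RingHom.ext fun q => Polynomial.aeval_subalgebra_coe q _ ⟨s, hs⟩
  rw [← hcomp] at h0
  have h1 : aG.IsIntegralElem (inclG K N (trS A K) hs v) :=
    RingHom.IsIntegralElem.of_map (g := SubringClass.subtype (gaussSubalgebra K N (trS A K)))
      Subtype.val_injective h0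
  have h2 := h1.map (thetaA N A K)
  have h3 : (thetaA N A K).comp aG =
      ((aeval σ : kA[X] →ₐ[kA] LaurentSeries kA) : kA[X] →+* LaurentSeries kA).comp
        (mapRingHom ((ebar A K).comp (IsLocalRing.residue ↥(trS A K)))) := by
    refine RingHom.ext fun q => ?_
    show coeffMap (ebar A K) (theta K N (trS A K) (aeval (⟨s, hs⟩ : gaussSubalgebra K N (trS A K)) q))
      = aeval σ (q.map ((ebar A K).comp (IsLocalRing.residue ↥(trS A K))))
    rw [theta_aeval, coeffMap_aeval, Polynomial.map_map]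
    rfl
  rw [h3] at h2
  have h4 := h2.of_comp
  have h5 := (Fermat.Agent.N4.IntClosure.mem_chartAlg_singleton_iff (O := kA) σ).mpr h4
  exact (mem_chartAlg_iff).mp h5

/-- Every element of `F̄` is a fraction of elements of the special fibre of the chart. -/
theorem exists_frac_fibreAlg (hsurj : Function.Surjective (ebar A K))
    (htr : Transcendental (IsLocalRing.ResidueField ↥(trS A K)) (theta K N (trS A K) ⟨s, hs⟩))
    (hprime : (fibreIdeal K N (trS A K) (chartAlg ↥(trS A K) (FF K N) {s})).IsPrime)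
    (hfrac : ∀ z : FF K N, ∃ b : ↥(Algebra.adjoin ↥(trS A K) ({s} : Set (FF K N))), b ≠ 0 ∧
      (b : FF K N) * z ∈ chartAlg ↥(trS A K) (FF K N) {s})
    {x : LaurentSeries kA} (hx : x ∈ modularFunctionFieldFullC kA N) :
    ∃ a ∈ fibreAlg N A K hs hsurj, ∃ b ∈ fibreAlg N A K hs hsurj, b ≠ 0 ∧ x * b = a := by
  obtain ⟨S, hS⟩ := frac_closure (fibreAlg N A K hs hsurj).toSubring
  have key : x ∈ S := by
    rw [modularFunctionFieldFullC] at hx
    induction hx using IntermediateField.adjoin_induction with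
    | mem y hy =>
      obtain ⟨d, hd, hdN, rfl⟩ := hy
      haveI := hd
      have hmem : jdF K N hdN ∈ gaussSubalgebra K N (trS A K) := by
        rw [mem_gaussSubalgebra_iff, coe_jdF, ← emb_jd K (trS A K) d]
        exact emb_mem_gaussRing _
      have hθ : thetaA N A K ⟨jdF K N hdN, hmem⟩ = qExpand kA d (jqModC kA) := by
        rw [thetaA_of_emb N A K _ (qExpand ↥(trS A K) d (jqModC ↥(trS A K)))
          (by rw [← emb_eq, emb_jd]; rfl)]
        rw [coeffMap_qExpand, coeffMap_jqModC, coeffMap_qExpand, coeffMap_jqModC]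
      obtain ⟨a, b, hb, hab⟩ := exists_frac K N (trS A K) hs htr hprime hfrac ⟨jdF K N hdN, hmem⟩
      rw [hS]
      refine ⟨ThetaR N A K hs a, ⟨a, rfl⟩, ThetaR N A K hs b, ⟨b, rfl⟩, ?_, ?_⟩
      · rw [Ne, ThetaR_eq_zero_iff]; exact hb
      · rw [← hθ]
        show thetaA N A K _ * thetaA N A K _ = thetaA N A K _
        rw [← map_mul]
        congr 1
        exact Subtype.ext hab
    | algebraMap c =>
      rw [hS]
      exact ⟨_, (fibreAlg N A K hs hsurj).algebraMap_mem c, 1, one_mem _, one_ne_zero, mul_one _⟩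
    | add x y _ _ hx hy => exact add_mem hx hy
    | inv x _ hx => exact inv_mem hx
    | mul x y _ _ hx hy => exact mul_mem hx hy
  exact (hS x).mp key

end Chart

section Main

variable (N : ℕ) [NeZero N] (A : ValuationSubring Qbar) (K : Type) [Field K] [CharZero K]
  [Algebra K Qbar] [IsDiscreteValuationRing ↥(trS A K)]

set_option quotPrecheck false in
local notation "kA" => IsLocalRing.ResidueField ↥A

set_option synthInstance.maxHeartbeats 400000 in
/-- **Constants on the special fibre.** -/
theorem const_of_ord_eq_zero_fibre [IsAlgClosed kA] (hsurj : Function.Surjective (ebar A K))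
    (hfin : (fibreIdeal K N (trS A K) (Rfin K N (trS A K))).IsPrime)
    (hinf : (fibreIdeal K N (trS A K) (Rinf K N (trS A K))).IsPrime)
    (hsmooth : SmoothStatement K N (trS A K))
    (c : ↥(modularFunctionFieldFullC kA N)) (hc : c ≠ 0)
    (h : ∀ Q : Place kA ↥(modularFunctionFieldFullC kA N), Q.ord c = 0) :
    ∃ a : kA, algebraMap kA ↥(modularFunctionFieldFullC kA N) a = c := by
  have hsp := jF_mem_gaussSubalgebra K N (trS A K)
  have hsm := jF_inv_mem_gaussSubalgebra K N (trS A K)
  have htrp : Transcendental (IsLocalRing.ResidueField ↥(trS A K))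
      (theta K N (trS A K) ⟨jF K N, hsp⟩) := by
    rw [theta_jF]
    exact Fermat.Agent.S24.FFBasics.transcendental_jqModC _
  have htrm : Transcendental (IsLocalRing.ResidueField ↥(trS A K))
      (theta K N (trS A K) ⟨(jF K N)⁻¹, hsm⟩) := by
    rw [theta_jF_inv]
    intro halg
    exact Fermat.Agent.S24.FFBasics.transcendental_jqModC _ (by simpa using halg.inv)
  have hfracp := FFAlgebraic.exists_mul_mem_chartAlg K N (trS A K) _
      (FFAlgebraic.transcendental_jF K N) (FFAlgebraic.isAlgebraic_jF K N)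
  have hfracm := FFAlgebraic.exists_mul_mem_chartAlg K N (trS A K) _
      (FFAlgebraic.transcendental_jF_inv K N) (FFAlgebraic.isAlgebraic_jF_inv K N)
  obtain ⟨hDp, hDm⟩ := hsmooth
  haveI := isDedekindDomain_fibreAlg N A K hsp hsurj htrp hfin hDp
  haveI := isDedekindDomain_fibreAlg N A K hsm hsurj htrm hinf hDm
  have hjp : thetaA N A K ⟨jF K N, hsp⟩ = jqModC kA := by
    rw [thetaA_apply, theta_jF, coeffMap_jqModC]
  have hjm : thetaA N A K ⟨(jF K N)⁻¹, hsm⟩ = (jqModC kA)⁻¹ := by
    rw [thetaA_apply, theta_jF_inv, map_inv₀, coeffMap_jqModC]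
  exact Fermat.Agent.N4.SpecialFibreConst.const_of_ord_eq_zero
    (modularFunctionFieldFullC kA N) (fibreAlg N A K hsp hsurj) (fibreAlg N A K hsm hsurj)
    (jqModC kA) (Fermat.Agent.S24.FFBasics.transcendental_jqModC _) (jqModC_mem_full kA N)
    ⟨chartGen (Set.mem_singleton _), by rw [ThetaR_chartGen, hjp]⟩
    ⟨chartGen (Set.mem_singleton _), by rw [ThetaR_chartGen, hjm]⟩
    (by
      rintro x ⟨v, rfl⟩
      have := isIntegral_ThetaR N A K hsp v
      rwa [hjp] at this)
    (by
      rintro x ⟨v, rfl⟩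
      have := isIntegral_ThetaR N A K hsm v
      rwa [hjm] at this)
    (fun x hx => exists_frac_fibreAlg N A K hsp hsurj htrp hfin hfracp hx)
    (fun x hx => exists_frac_fibreAlg N A K hsm hsurj htrm hinf hfracm hx)
    c hc h

end Main

end Fermat.Agent.N4.S18Glue
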