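/-
N4 block d (S18 glue), file 11: S18 from the two targets (∗) and (S) in the form in which blocks
S28a / Sreg deliver them (`SmoothModel.smoothTargetRoots`: the base contains the `N`-th roots of
unity, and the cube roots of unity when `ℓ = 2`), and the unconditional statement.
-/
import Fermat.Agent.N4.S18Glue.Final
import Fermat.Agent.N4.SmoothModel

set_option autoImplicit false
set_option linter.unusedSectionVars false
set_option linter.style.haveILetI false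

open ModularCurve Polynomial AlgebraicCurve IntermediateField

namespace Fermat.Agent.N4.S18Glue

open Fermat.Agent.N4.Setting Fermat.Agent.N4.Chart Fermat.Agent.N4.FibreEmbedding
  Fermat.Agent.S28.Gauss Fermat.Agent.N4.BigDVR Fermat.Agent.N4.SmoothModel

local notation "Qbar" => AlgebraicClosure ℚ

/-- A natural number prime to the residue characteristic is a unit of `A`. -/
theorem natCast_not_mem_nonunits_of_coprime (A : ValuationSubring Qbar) {ℓ n : ℕ}
    (hA : ((ℓ : ℕ) : Qbar) ∈ A.nonunits) (hn : Nat.Coprime n ℓ) :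
    ((n : ℕ) : Qbar) ∉ A.nonunits := by
  intro hpA
  have hcop : IsCoprime (n : ℤ) (ℓ : ℤ) := Nat.isCoprime_iff_coprime.mpr hn
  obtain ⟨u, v, huv⟩ := hcop
  have h1 : ((n : ℕ) : ↥A) ∈ IsLocalRing.maximalIdeal ↥A := by
    rw [← ValuationSubring.coe_mem_nonunits_iff]
    simpa using hpA
  have h2 : ((ℓ : ℕ) : ↥A) ∈ IsLocalRing.maximalIdeal ↥A := by
    rw [← ValuationSubring.coe_mem_nonunits_iff]
    simpa using hA
  have h3 : (1 : ↥A) ∈ IsLocalRing.maximalIdeal ↥A := by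
    have : (1 : ↥A) = (u : ↥A) * ((n : ℕ) : ↥A) + (v : ↥A) * ((ℓ : ℕ) : ↥A) := by
      have := congrArg (Int.cast : ℤ → ↥A) huv
      push_cast at this
      exact this.symm
    rw [this]
    exact Ideal.add_mem _ (Ideal.mul_mem_left _ _ h1) (Ideal.mul_mem_left _ _ h2)
  exact (Ideal.ne_top_iff_one _).mp (IsLocalRing.maximalIdeal.isMaximal ↥A).ne_top h3

set_option synthInstance.maxHeartbeats 400000 in
set_option maxHeartbeats 1600000 in
/-- **S18 from (∗) and (S) (root form).** -/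
theorem result_of_targets_roots (hstar : StarInput) (hsmooth : SmoothTargetRoots)
    (N : ℕ) [NeZero N] {ℓ : ℕ} [Fact ℓ.Prime] (hℓN : ¬ ℓ ∣ N)
    (A : ValuationSubring Qbar) (hA : A.LiesOverPrime ℓ)
    (h : ModularCurve.ReductionInputsModL A N) (m : ℕ) (hm : ¬ ℓ ∣ m) (z : ModularCurve.JZero N)
    (hmz : m • z = 0) (hz : ModularCurve.reductionModL A N z = 0) : z = 0 := by
  classical
  by_contra hz0
  have hℓ : ℓ.Prime := Fact.out
  have hℓA : ((ℓ : ℕ) : Qbar) ∈ A.nonunits := hA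
  obtain ⟨p, hp, hpℓ, y₁, y₂, hy₁, hy₂, hk₁, hk₂, gbar, hne₁, hne₂, hg0, hordP, hnp, hordQ⟩ :=
    exists_data h hm hmz hz hz0
  obtain ⟨T₁, hT₁⟩ := exists_descent_series N A y₁ hy₁
  obtain ⟨T₂, hT₂⟩ := exists_descent_series N A y₂ hy₂
  obtain ⟨T₃, hT₃⟩ := exists_lift_residue N A gbar.2
  obtain ⟨K', hT, hDVR, hAC, hGB, hbij, hroots⟩ :=
    exists_goodBase A hℓ hA (T₁ ∪ T₂ ∪ T₃) N hℓN
  haveI := isAlgebraic_rat K'
  haveI : IsDiscreteValuationRing ↥(trS A ↥K') := hDVR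
  haveI : Algebra.IsAlgebraic ℚ Qbar := AlgebraicClosure.isAlgebraic ℚ
  haveI : Algebra.IsAlgebraic ↥K' Qbar := Algebra.IsAlgebraic.tower_top (K := ℚ) ↥K'
  haveI : IsAlgClosed (IsLocalRing.ResidueField ↥A) := isAlgClosed_residueField A
  have hrange : ∀ t ∈ T₁ ∪ T₂ ∪ T₃, t ∈ (algebraMap ↥K' Qbar).range :=
    fun t ht => ⟨⟨t, hT t ht⟩, rfl⟩
  have hroots' : ∀ ξ ∈ goodRoots A, ξ ∈ (algebraMap ↥K' Qbar).range :=
    fun ξ hξ => ⟨⟨ξ, hroots ξ hξ⟩, rfl⟩
  -- the two targets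
  have hω : ℓ = 2 → ∃ z : ↥K', z ^ 2 + z + 1 = 0 := by
    intro h2
    refine exists_omega A ↥K' hroots' ?_
    exact natCast_not_mem_nonunits A hℓ hℓA Nat.prime_three (by omega)
  have hNA : ((N : ℕ) : Qbar) ∉ A.nonunits :=
    natCast_not_mem_nonunits_of_coprime A hℓA
      ((Nat.coprime_comm.mp ((Nat.Prime.coprime_iff_not_dvd hℓ).mpr hℓN)))
  have hζN : ∃ ζ : ↥K', IsPrimitiveRoot ζ N := by
    obtain ⟨ζ, hζ⟩ := exists_primitiveRoot_trS A ↥K' hroots' (Nat.pos_of_ne_zero (NeZero.ne N)) hNA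
    exact ⟨(trS A ↥K').subtype ζ, hζ.map_of_injective Subtype.val_injective⟩
  have hS := hstar ↥K' N (trSubring A K') ℓ hGB hω
  have hSm := hsmooth ↥K' N (trSubring A K') ℓ hGB hζN hω
  -- units and roots of unity
  have hpA : ((p : ℕ) : Qbar) ∉ A.nonunits := natCast_not_mem_nonunits A hℓ hℓA hp hpℓ
  obtain ⟨ζ, hζ⟩ := exists_primitiveRoot_trS A ↥K' hroots' hp.pos hpA
  -- descent of the data
  obtain ⟨y₁', h₁, hF₁⟩ := hT₁ ↥K' fun t ht =>
    hrange t (Finset.mem_union_left _ (Finset.mem_union_left _ ht))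
  obtain ⟨y₂', h₂, hF₂⟩ := hT₂ ↥K' fun t ht =>
    hrange t (Finset.mem_union_left _ (Finset.mem_union_right _ ht))
  obtain ⟨g₀, hg₀⟩ := hT₃ ↥K' fun t ht => hrange t (Finset.mem_union_right _ ht)
  exact contradiction_at N A ↥K' hbij.2 hS.1.isPrime hS.2.isPrime hSm hp
    (isUnit_natCast_trS A ↥K' hpA) hζ y₁ y₂ hy₁ hy₂ hk₁ hk₂ gbar hne₁ hne₂ hg0 hordP hnp hordQ
    y₁' y₂' h₁ h₂ hF₁ hF₂ g₀ hg₀

/-- (∗) in the form used by the glue. -/
theorem starInput : StarInput :=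
  fun K _ _ _ N _ O _ ℓ hG hω => SmoothModel.starTargetOmega K N O ℓ hG hω

/-- **S18**: injectivity of the reduction map on prime-to-`ℓ` torsion. -/
theorem result_final (N : ℕ) [NeZero N] {ℓ : ℕ} [Fact ℓ.Prime] (hℓN : ¬ ℓ ∣ N)
    (A : ValuationSubring Qbar) (hA : A.LiesOverPrime ℓ)
    (h : ModularCurve.ReductionInputsModL A N) (m : ℕ) (hm : ¬ ℓ ∣ m) (z : ModularCurve.JZero N)
    (hmz : m • z = 0) (hz : ModularCurve.reductionModL A N z = 0) : z = 0 :=
  result_of_targets_roots starInput SmoothModel.smoothTargetRoots N hℓN A hA h m hm z hmz hz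

end Fermat.Agent.N4.S18Glue
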