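/-
N4 block d (S18 glue), file 12: the UNCONDITIONAL general form of S18, for an arbitrary place map `r`
satisfying the specification `IsPlaceReductionModL` (blocks S28a and Sreg plugged in through
`FinalRoots.starInput` and `SmoothModel.smoothTargetRoots`).
-/
import Fermat.Agent.N4.S18Glue.FinalRoots

set_option autoImplicit false

open ModularCurve AlgebraicCurve

namespace Fermat.Agent.N4.S18Glue

open Fermat.Agent.N4.Setting

local notation "Qbar" => AlgebraicClosure ℚ

/-- Block Sreg in the form `Final.SmoothInput`. -/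
theorem smoothInput : SmoothInput :=
  smoothInput_of_roots fun K _ _ _ N _ O _ _ ℓ hG hζ hω =>
    Fermat.Agent.N4.SmoothModel.smoothTargetRoots K N O ℓ hG hζ hω

set_option synthInstance.maxHeartbeats 400000 in
/-- **S18 for an arbitrary place map `r` satisfying the specification** (unconditional). -/
theorem eq_zero_of_reductionPic0Along_eq_zero_final
    (N : ℕ) [NeZero N] {ℓ : ℕ} [Fact ℓ.Prime] (hℓN : ¬ ℓ ∣ N)
    (A : ValuationSubring Qbar) (hA : A.LiesOverPrime ℓ)
    (r : Place Qbar ↥(modularFunctionFieldBar N) →
      Place (IsLocalRing.ResidueField ↥A)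
        ↥(modularFunctionFieldFullC (IsLocalRing.ResidueField ↥A) N))
    (hr : IsPlaceReductionModL A N r)
    (hgen : PrincipalGeneratedByIntegral A (IsLocalRing.residue ↥A) N)
    (m : ℕ) (hm : ¬ ℓ ∣ m) (z : ModularCurve.JZero N)
    (hmz : m • z = 0) (hz : reductionPic0Along r hr hgen z = 0) : z = 0 :=
  eq_zero_of_reductionPic0Along_eq_zero starInput smoothInput N hℓN A hA r hr hgen m hm z hmz hz

end Fermat.Agent.N4.S18Glue
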